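/-
S55 / 32c-SECOND-INEQ-INST, part (V0) (helper53): THE PLACE MODEL of a number field `K`
instantiating the data `(V, A, ι, U)` of `SecondIneq74.Core`.

* finite places `v : HeightOneSpectrum (𝓞 K)` with a chosen embedding `σ_v : K →+* PadicAlgCl ℓ_v`
  cutting out `v` (`PlaceData`); `K_v := ℚ_ℓ(σ_v K) : LocField17.LF ℓ_v` (team local model),
  `A v = (K_v)ˣ`, `U v` = elements of norm one, `ι v = Units.map σ_v`;
* the infinite places are DUMMY places (`A = PUnit`, `U = ⊤`): for `μ_p ⊆ K`, `p` odd, they are all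
  complex and make `T.card` count `r₂` in `hunit` / `hprod` of `relIndex_sup_dvd`;
* `tame p` = the finite places not above `p`.

The model does not depend on any Galois level: it serves the varying Kummer fields of `FI`.
-/
import Mathlib
import Fermat.Prelude.Def_GaloisRep_CompletionBridge
import Fermat.Agent.S55.LocField17.Basic
import Fermat.Agent.S55.SecondIneq74.Core

set_option autoImplicit false

open IsDedekindDomain NumberField

noncomputable section

namespace Fermat.Agent.S55.SecondInst53.PlaceModel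

open Fermat.Agent.S55.LocField17

variable (K : Type*) [Field K] [NumberField K]

/-- chosen embeddings `σ_v : K → PadicAlgCl ℓ_v` cutting out the finite places of `K`. -/
structure PlaceData where
  /-- the residue characteristic of `v` -/
  ℓ : HeightOneSpectrum (𝓞 K) → ℕ
  /-- it is prime -/
  prime : ∀ v, Fact (ℓ v).Prime
  /-- the chosen embedding -/
  σ : ∀ v, K →+* PadicAlgCl (ℓ v)
  /-- `σ v` cuts out `v`: same unit ball -/
  le_one_iff : ∀ v (x : K), v.valuation K x ≤ 1 ↔ ‖σ v x‖ ≤ 1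

attribute [instance] PlaceData.prime

variable {K}

namespace PlaceData

variable (D : PlaceData K)

theorem lt_one_iff (v : HeightOneSpectrum (𝓞 K)) (x : K) :
    v.valuation K x < 1 ↔ ‖D.σ v x‖ < 1 := by
  by_cases hx : x = 0
  · simp [hx]
  · have h := D.le_one_iff v x⁻¹
    rw [map_inv₀, map_inv₀, norm_inv] at h
    have hv : 0 < v.valuation K x := zero_lt_iff.mpr ((Valuation.ne_zero_iff _).mpr hx)
    have hn : 0 < ‖D.σ v x‖ := norm_pos_iff.mpr ((map_ne_zero _).mpr hx)
    rw [inv_le_one₀ hv, inv_le_one₀ hn] at h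
    constructor
    · intro h1
      by_contra h2
      rw [not_lt] at h2
      exact absurd (h.mpr h2) (not_le.mpr h1)
    · intro h1
      by_contra h2
      rw [not_lt] at h2
      exact absurd (h.mp h2) (not_le.mpr h1)

theorem eq_one_iff (v : HeightOneSpectrum (𝓞 K)) (x : K) :
    v.valuation K x = 1 ↔ ‖D.σ v x‖ = 1 := by
  constructor
  · intro h
    refine le_antisymm ((D.le_one_iff v x).mp h.le) ?_
    by_contra h2
    rw [not_le] at h2
    exact absurd ((D.lt_one_iff v x).mpr h2) (not_lt.mpr h.ge)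
  · intro h
    refine le_antisymm ((D.le_one_iff v x).mpr h.le) ?_
    by_contra h2
    rw [not_le] at h2
    exact absurd ((D.lt_one_iff v x).mp h2) (not_lt.mpr h.ge)

/-- the residue characteristic lies in `v`. -/
theorem natCast_mem (v : HeightOneSpectrum (𝓞 K)) : ((D.ℓ v : ℕ) : 𝓞 K) ∈ v.asIdeal := by
  have h1 : ‖D.σ v ((D.ℓ v : ℕ) : K)‖ < 1 := by
    rw [map_natCast]
    exact norm_q_lt_one
  have h2 := (D.lt_one_iff v _).mpr h1
  have h3 : (((D.ℓ v : ℕ) : 𝓞 K) : K) = ((D.ℓ v : ℕ) : K) := by simp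
  rw [← h3] at h2
  exact (v.valuation_lt_one_iff_mem _).mp h2

/-- the local field `K_v = ℚ_ℓ(σ_v K)` inside `PadicAlgCl ℓ` (team local model `LF ℓ`). -/
abbrev locField (v : HeightOneSpectrum (𝓞 K)) : LF (D.ℓ v) :=
  IntermediateField.adjoin ℚ_[D.ℓ v] (Set.range (D.σ v))

/-- `σ_v` with values in `K_v`. -/
def toLocField (v : HeightOneSpectrum (𝓞 K)) : K →+* D.locField v :=
  (D.σ v).codRestrict (D.locField v).toSubalgebra.toSubring
    (fun x => IntermediateField.subset_adjoin _ _ ⟨x, rfl⟩)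

@[simp] theorem coe_toLocField (v : HeightOneSpectrum (𝓞 K)) (x : K) :
    ((D.toLocField v x : D.locField v) : PadicAlgCl (D.ℓ v)) = D.σ v x := rfl

end PlaceData

/-! ### The data `(V, A, ι, U)` -/

variable (K) in
/-- the places: finite places and (dummy) infinite places. -/
abbrev V : Type _ := HeightOneSpectrum (𝓞 K) ⊕ InfinitePlace K

variable (D : PlaceData K)

/-- the local multiplicative groups. -/
def A : V K → Type
  | Sum.inl v => (D.locField v)ˣ
  | Sum.inr _ => PUnit

instance instCommGroupA : ∀ v : V K, CommGroup (A D v)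
  | Sum.inl v => inferInstanceAs (CommGroup (D.locField v)ˣ)
  | Sum.inr _ => inferInstanceAs (CommGroup PUnit)

/-- the local embedding `Kˣ → (K_v)ˣ` at a finite place. -/
def ιf (v : HeightOneSpectrum (𝓞 K)) : Kˣ →* (D.locField v)ˣ :=
  Units.map (D.toLocField v).toMonoidHom

@[simp] theorem ιf_coe (v : HeightOneSpectrum (𝓞 K)) (x : Kˣ) :
    (((ιf D v x : (D.locField v)ˣ) : D.locField v) : PadicAlgCl (D.ℓ v)) = D.σ v (x : K) := rfl

/-- the local embeddings `Kˣ → A v`. -/
def ι : ∀ v : V K, Kˣ →* A D v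
  | Sum.inl v => ιf D v
  | Sum.inr _ => 1

theorem ι_inl (v : HeightOneSpectrum (𝓞 K)) : ι D (Sum.inl v) = ιf D v := rfl

/-- the norm-one subgroup of `(K_v)ˣ`. -/
def unitBall (v : HeightOneSpectrum (𝓞 K)) : Subgroup (D.locField v)ˣ where
  carrier := {u | ‖((u : D.locField v) : PadicAlgCl (D.ℓ v))‖ = 1}
  one_mem' := by simp
  mul_mem' := by
    intro a b ha hb
    simp only [Set.mem_ofPred_eq] at ha hb ⊢
    rw [Units.val_mul, MulMemClass.coe_mul, norm_mul, ha, hb, one_mul]
  inv_mem' := by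
    intro a ha
    simp only [Set.mem_ofPred_eq] at ha ⊢
    have h : ((a⁻¹ : (D.locField v)ˣ) : D.locField v) = ((a : D.locField v))⁻¹ := by simp
    have h2 : (((a : D.locField v)⁻¹ : D.locField v) : PadicAlgCl (D.ℓ v)) =
        ((a : D.locField v) : PadicAlgCl (D.ℓ v))⁻¹ := by simp
    rw [h, h2, norm_inv, ha, inv_one]

theorem mem_unitBall_iff (v : HeightOneSpectrum (𝓞 K)) (u : (D.locField v)ˣ) :
    u ∈ unitBall D v ↔ ‖((u : D.locField v) : PadicAlgCl (D.ℓ v))‖ = 1 := Iff.rfl

/-- the local units. -/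
def U : ∀ v : V K, Subgroup (A D v)
  | Sum.inl v => unitBall D v
  | Sum.inr _ => ⊤

/-- the tame places: the finite places not above `p`. -/
def tame (p : ℕ) : Set (V K) :=
  {w | ∃ v : HeightOneSpectrum (𝓞 K), w = Sum.inl v ∧ ((p : ℕ) : 𝓞 K) ∉ v.asIdeal}

omit [NumberField K] in
theorem inl_mem_tame_iff (p : ℕ) (v : HeightOneSpectrum (𝓞 K)) :
    (Sum.inl v : V K) ∈ tame (K := K) p ↔ ((p : ℕ) : 𝓞 K) ∉ v.asIdeal := by
  constructor
  · rintro ⟨v', hv', h⟩
    rw [Sum.inl.injEq] at hv'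
    rwa [hv']
  · intro h
    exact ⟨v, rfl, h⟩

omit [NumberField K] in
theorem inr_notMem_tame (p : ℕ) (w : InfinitePlace K) : (Sum.inr w : V K) ∉ tame (K := K) p := by
  rintro ⟨v, hv, -⟩
  exact absurd hv (by simp)

/-! ### Basic dictionary -/

theorem U_inl (v : HeightOneSpectrum (𝓞 K)) : U D (Sum.inl v) = unitBall D v := rfl

theorem U_inr (w : InfinitePlace K) : U D (Sum.inr w) = ⊤ := rfl

theorem ιf_mem_unitBall_iff (v : HeightOneSpectrum (𝓞 K)) (x : Kˣ) :
    ιf D v x ∈ unitBall D v ↔ v.valuation K (x : K) = 1 := by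
  rw [D.eq_one_iff]
  exact Iff.rfl

theorem ι_inl_mem_U_iff (v : HeightOneSpectrum (𝓞 K)) (x : Kˣ) :
    ι D (Sum.inl v) x ∈ U D (Sum.inl v) ↔ v.valuation K (x : K) = 1 :=
  ιf_mem_unitBall_iff D v x

theorem ι_inr_mem_U (w : InfinitePlace K) (x : Kˣ) : ι D (Sum.inr w) x ∈ U D (Sum.inr w) :=
  Subgroup.mem_top _

/-- the primes containing a nonzero integer are finite in number. -/
theorem finite_setOf_mem_asIdeal {n : 𝓞 K} (hn : n ≠ 0) :
    {w : HeightOneSpectrum (𝓞 K) | n ∈ w.asIdeal}.Finite := by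
  have h0 : Ideal.span {n} ≠ 0 := by
    rw [Ne, Ideal.zero_eq_bot, Ideal.span_singleton_eq_bot]
    exact hn
  refine (Ideal.finite_factors h0).subset ?_
  intro P hP
  change P.asIdeal ∣ _
  rw [Ideal.dvd_span_singleton]
  exact hP

/-- the primes at which a nonzero element of `K` is not a unit are finite in number. -/
theorem finite_setOf_valuation_ne_one' (x : Kˣ) :
    {w : HeightOneSpectrum (𝓞 K) | w.valuation K (x : K) ≠ 1}.Finite := by
  obtain ⟨n, d, hd, hnd⟩ := IsFractionRing.div_surjective (A := 𝓞 K) (x : K)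
  have hd0 : d ≠ 0 := nonZeroDivisors.ne_zero hd
  have hn0 : n ≠ 0 := by
    rintro rfl
    rw [map_zero, zero_div] at hnd
    exact x.ne_zero hnd.symm
  refine ((finite_setOf_mem_asIdeal hn0).union (finite_setOf_mem_asIdeal hd0)).subset ?_
  intro w hw
  by_contra hcon
  rw [Set.mem_union, not_or] at hcon
  apply hw
  have hvn : w.valuation K (algebraMap (𝓞 K) K n) = 1 :=
    (w.valuation_eq_one_iff_notMem (K := K)).mpr hcon.1
  have hvd : w.valuation K (algebraMap (𝓞 K) K d) = 1 :=
    (w.valuation_eq_one_iff_notMem (K := K)).mpr hcon.2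
  rw [← hnd, map_div₀, hvn, hvd, div_one]

/-- **(hfin)** of `SecondIneq74.relIndex_sup_dvd`. -/
theorem hfin (x : Kˣ) : {v : V K | ι D v x ∉ U D v}.Finite := by
  refine ((finite_setOf_valuation_ne_one' x).image Sum.inl).subset ?_
  rintro (v | w) hv
  · refine ⟨v, ?_, rfl⟩
    intro h
    exact hv ((ι_inl_mem_U_iff D v x).mpr h)
  · exact absurd (ι_inr_mem_U D w x) hv

end Fermat.Agent.S55.SecondInst53.PlaceModel
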