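/-
S55 / 32c-B (helper53): the LOCAL ASSEMBLY MAPS from the place model of `K` to the coinduced model
of a Galois level `L ⊇ K`.

For a finite place `v` of `K` (chosen embedding `σ_v : K → PadicAlgCl ℓ_v`) and `z ∈ (K_v)ˣ`, the
function `phi v z : Gal(L/ℚ) → (PadicAlgCl ℓ_v)ˣ` is supported on the double coset of `v`
(`InPl v g`: `ι ∘ g|_K` is `Gal(ℚ̄_ℓ/ℚ_ℓ)`-conjugate to `σ_v`) and takes the value `τ z` at `g` when
`ι (g x) = τ (σ_v x)` on `K`.  It is an element of `Jq ℓ_v L`, invariant under `Gal(L/K)`.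
-/
import Mathlib
import Fermat.Agent.S55.SecondInst53.PlaceModel
import Fermat.Agent.S55.Idele73.Basic
import Fermat.Agent.S55.PlaceCount50.Dict

set_option autoImplicit false

open IsDedekindDomain NumberField

noncomputable section

namespace Fermat.Agent.S55.SecondInst53.Assembly

open Fermat.Agent.S55.Idele73.Basic Fermat.Agent.S55.SecondInst53.PlaceModel

variable (L : IntermediateField ℚ Qbar) [Normal ℚ L]
variable (K : IntermediateField ℚ Qbar) [FiniteDimensional ℚ K] (hKL : K ≤ L)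
variable (D : PlaceData ↥K)

/-- the inclusion `K → L`. -/
abbrev incl : K →ₐ[ℚ] L := IntermediateField.inclusion hKL

/-- `Gal(L/K)` as a subgroup of `Gal(L/ℚ)`. -/
def fixK : Subgroup (GalL L) where
  carrier := {s | ∀ x : K, s (incl L K hKL x) = incl L K hKL x}
  one_mem' := fun _ => rfl
  mul_mem' := by
    intro a b ha hb x
    rw [AlgEquiv.mul_apply, hb x, ha x]
  inv_mem' := by
    intro a ha x
    have := ha x
    rw [AlgEquiv.aut_inv]
    exact (AlgEquiv.symm_apply_eq a).mpr this.symm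

theorem mem_fixK {s : GalL L} : s ∈ fixK L K hKL ↔ ∀ x : K, s (incl L K hKL x) = incl L K hKL x :=
  Iff.rfl

variable {L K}

/-- `τ` compares the embedding `ι ∘ g|_K` with the chosen embedding `σ_v`. -/
def Cmp (v : HeightOneSpectrum (𝓞 K)) (g : GalL L) (τ : Gq (D.ℓ v)) : Prop :=
  ∀ x : K, iotaL (D.ℓ v) L (g (incl L K hKL x)) = τ (D.σ v x)

/-- `g` lies in the double coset of the place `v`. -/
def InPl (v : HeightOneSpectrum (𝓞 K)) (g : GalL L) : Prop := ∃ τ, Cmp hKL D v g τ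

variable {hKL D}

theorem Cmp.mul_left {v : HeightOneSpectrum (𝓞 K)} {g : GalL L} {τ : Gq (D.ℓ v)}
    (h : Cmp hKL D v g τ) (τ' : Gq (D.ℓ v)) :
    Cmp hKL D v (locHom (D.ℓ v) L τ' * g) (τ' * τ) := by
  intro x
  rw [AlgEquiv.mul_apply, iotaL_locHom, h x, AlgEquiv.mul_apply]

theorem Cmp.mul_right {v : HeightOneSpectrum (𝓞 K)} {g : GalL L} {τ : Gq (D.ℓ v)}
    (h : Cmp hKL D v g τ) {s : GalL L} (hs : s ∈ fixK L K hKL) :
    Cmp hKL D v (g * s) τ := by
  intro x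
  rw [AlgEquiv.mul_apply, hs x, h x]

theorem InPl.mul_left {v : HeightOneSpectrum (𝓞 K)} {g : GalL L} (h : InPl hKL D v g)
    (τ' : Gq (D.ℓ v)) : InPl hKL D v (locHom (D.ℓ v) L τ' * g) := by
  obtain ⟨τ, hτ⟩ := h
  exact ⟨τ' * τ, hτ.mul_left τ'⟩

theorem inPl_mul_left_iff {v : HeightOneSpectrum (𝓞 K)} {g : GalL L} (τ' : Gq (D.ℓ v)) :
    InPl hKL D v (locHom (D.ℓ v) L τ' * g) ↔ InPl hKL D v g := by
  refine ⟨fun h => ?_, fun h => h.mul_left τ'⟩
  have := h.mul_left τ'⁻¹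
  rwa [← mul_assoc, ← map_mul, inv_mul_cancel, map_one, one_mul] at this

theorem InPl.mul_right {v : HeightOneSpectrum (𝓞 K)} {g : GalL L} (h : InPl hKL D v g)
    {s : GalL L} (hs : s ∈ fixK L K hKL) : InPl hKL D v (g * s) := by
  obtain ⟨τ, hτ⟩ := h
  exact ⟨τ, hτ.mul_right hs⟩

theorem inPl_mul_right_iff {v : HeightOneSpectrum (𝓞 K)} {g : GalL L} {s : GalL L}
    (hs : s ∈ fixK L K hKL) : InPl hKL D v (g * s) ↔ InPl hKL D v g := by
  refine ⟨fun h => ?_, fun h => h.mul_right hs⟩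
  have := h.mul_right ((fixK L K hKL).inv_mem hs)
  rwa [mul_assoc, mul_inv_cancel, mul_one] at this

/-- two comparison automorphisms agree on `K_v`. -/
theorem Cmp.apply_eq {v : HeightOneSpectrum (𝓞 K)} {g : GalL L} {τ τ' : Gq (D.ℓ v)}
    (h : Cmp hKL D v g τ) (h' : Cmp hKL D v g τ') {z : PadicAlgCl (D.ℓ v)}
    (hz : z ∈ D.locField v) : τ z = τ' z := by
  have key : ∀ y ∈ Set.range (D.σ v), (τ'⁻¹ * τ) y = y := by
    rintro _ ⟨x, rfl⟩
    rw [AlgEquiv.mul_apply, ← h x, h' x, AlgEquiv.aut_inv, AlgEquiv.symm_apply_apply]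
  have hfix : z ∈ IntermediateField.fixedField (Subgroup.zpowers (τ'⁻¹ * τ)) := by
    have hle : D.locField v ≤ IntermediateField.fixedField (Subgroup.zpowers (τ'⁻¹ * τ)) := by
      rw [IntermediateField.adjoin_le_iff]
      intro y hy
      rw [SetLike.mem_coe, IntermediateField.mem_fixedField_iff]
      intro f hf
      obtain ⟨n, rfl⟩ := Subgroup.mem_zpowers_iff.mp hf
      have h1 : ∀ m : ℕ, ((τ'⁻¹ * τ) ^ m) y = y := by
        intro m
        induction m with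
        | zero => simp
        | succ m ih => rw [pow_succ, AlgEquiv.mul_apply, key y hy, ih]
      rcases Int.eq_nat_or_neg n with ⟨m, rfl | rfl⟩
      · rw [zpow_natCast]; exact h1 m
      · rw [zpow_neg, zpow_natCast, AlgEquiv.aut_inv]
        exact (AlgEquiv.symm_apply_eq _).mpr (h1 m).symm
    exact hle hz
  have h2 := (IntermediateField.mem_fixedField_iff _ z).mp hfix (τ'⁻¹ * τ)
    (Subgroup.mem_zpowers _)
  rw [AlgEquiv.mul_apply, AlgEquiv.aut_inv] at h2
  exact (AlgEquiv.symm_apply_eq τ').mp h2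

/-- the inclusion `(K_v)ˣ → (PadicAlgCl ℓ)ˣ`. -/
def toBig (v : HeightOneSpectrum (𝓞 K)) : (D.locField v)ˣ →* (PadicAlgCl (D.ℓ v))ˣ :=
  Units.map (D.locField v).val.toRingHom.toMonoidHom

@[simp] theorem toBig_coe (v : HeightOneSpectrum (𝓞 K)) (z : (D.locField v)ˣ) :
    ((toBig v z : (PadicAlgCl (D.ℓ v))ˣ) : PadicAlgCl (D.ℓ v)) = ((z : D.locField v) : _) := rfl

variable (hKL D) in
open Classical in
/-- the local assembly function: `g ↦ τ z` on the double coset of `v`, `1` elsewhere. -/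
def phi (v : HeightOneSpectrum (𝓞 K)) (z : (D.locField v)ˣ) (g : GalL L) :
    (PadicAlgCl (D.ℓ v))ˣ :=
  if h : InPl hKL D v g then
    Units.map (h.choose : PadicAlgCl (D.ℓ v) →* PadicAlgCl (D.ℓ v)) (toBig v z)
  else 1

theorem phi_of_cmp {v : HeightOneSpectrum (𝓞 K)} (z : (D.locField v)ˣ) {g : GalL L}
    {τ : Gq (D.ℓ v)} (h : Cmp hKL D v g τ) :
    phi hKL D v z g = Units.map (τ : PadicAlgCl (D.ℓ v) →* PadicAlgCl (D.ℓ v)) (toBig v z) := by
  have hg : InPl hKL D v g := ⟨τ, h⟩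
  rw [phi, dif_pos hg]
  apply Units.ext
  change hg.choose ((z : D.locField v) : PadicAlgCl (D.ℓ v)) = τ ((z : D.locField v) : _)
  exact hg.choose_spec.apply_eq h (z : D.locField v).2

theorem phi_of_not {v : HeightOneSpectrum (𝓞 K)} (z : (D.locField v)ˣ) {g : GalL L}
    (h : ¬ InPl hKL D v g) : phi hKL D v z g = 1 := by
  rw [phi, dif_neg h]

theorem phi_mul (v : HeightOneSpectrum (𝓞 K)) (z z' : (D.locField v)ˣ) (g : GalL L) :
    phi hKL D v (z * z') g = phi hKL D v z g * phi hKL D v z' g := by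
  by_cases hg : InPl hKL D v g
  · obtain ⟨τ, hτ⟩ := hg
    rw [phi_of_cmp _ hτ, phi_of_cmp _ hτ, phi_of_cmp _ hτ, map_mul, map_mul]
  · rw [phi_of_not _ hg, phi_of_not _ hg, phi_of_not _ hg, one_mul]

theorem phi_one (v : HeightOneSpectrum (𝓞 K)) (g : GalL L) : phi hKL D v 1 g = 1 := by
  by_cases hg : InPl hKL D v g
  · obtain ⟨τ, hτ⟩ := hg
    rw [phi_of_cmp _ hτ, map_one, map_one]
  · exact phi_of_not _ hg

/-- the coinduction condition. -/
theorem phi_locHom_mul (v : HeightOneSpectrum (𝓞 K)) (z : (D.locField v)ˣ) (τ' : Gq (D.ℓ v))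
    (g : GalL L) :
    phi hKL D v z (locHom (D.ℓ v) L τ' * g) =
      Units.map (τ' : PadicAlgCl (D.ℓ v) →* PadicAlgCl (D.ℓ v)) (phi hKL D v z g) := by
  by_cases hg : InPl hKL D v g
  · obtain ⟨τ, hτ⟩ := hg
    rw [phi_of_cmp _ (hτ.mul_left τ'), phi_of_cmp _ hτ]
    apply Units.ext
    rfl
  · rw [phi_of_not _ hg, phi_of_not _ (fun h => hg ((inPl_mul_left_iff τ').mp h)), map_one]

/-- invariance under `Gal(L/K)`. -/
theorem phi_mul_fixK (v : HeightOneSpectrum (𝓞 K)) (z : (D.locField v)ˣ) (g : GalL L)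
    {s : GalL L} (hs : s ∈ fixK L K hKL) : phi hKL D v z (g * s) = phi hKL D v z g := by
  by_cases hg : InPl hKL D v g
  · obtain ⟨τ, hτ⟩ := hg
    rw [phi_of_cmp _ (hτ.mul_right hs), phi_of_cmp _ hτ]
  · rw [phi_of_not _ hg, phi_of_not _ (fun h => hg ((inPl_mul_right_iff hs).mp h))]

/-- the norm of the value: `‖phi v z g‖ = ‖z‖` on the double coset. -/
theorem norm_phi_of_inPl {v : HeightOneSpectrum (𝓞 K)} (z : (D.locField v)ˣ) {g : GalL L}
    (hg : InPl hKL D v g) :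
    ‖((phi hKL D v z g : (PadicAlgCl (D.ℓ v))ˣ) : PadicAlgCl (D.ℓ v))‖ =
      ‖((z : D.locField v) : PadicAlgCl (D.ℓ v))‖ := by
  obtain ⟨τ, hτ⟩ := hg
  rw [phi_of_cmp _ hτ]
  exact LocField17.norm_algEquiv τ _

/-- the diagonal: at a `g` in the double coset of `v`, `phi v (σ_v c) g = ι (g c)`. -/
theorem phi_ιf_of_inPl {v : HeightOneSpectrum (𝓞 K)} (c : (↥K)ˣ) {g : GalL L}
    (hg : InPl hKL D v g) :
    ((phi hKL D v (ιf D v c) g : (PadicAlgCl (D.ℓ v))ˣ) : PadicAlgCl (D.ℓ v)) =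
      iotaL (D.ℓ v) L (g (incl L K hKL (c : K))) := by
  obtain ⟨τ, hτ⟩ := hg
  rw [phi_of_cmp _ hτ, hτ (c : K)]
  rfl

/-! ### As elements of `Jq ℓ_v L` -/

variable (hKL D) in
/-- `phi v z` as an element of the coinduced module `Jq ℓ_v L`. -/
def Phi (v : HeightOneSpectrum (𝓞 K)) (z : (D.locField v)ˣ) : (Jq (D.ℓ v) L).V :=
  ⟨fun g => Additive.ofMul (phi hKL D v z g), fun τ g => by
    change Additive.ofMul (phi hKL D v z (locHom (D.ℓ v) L τ * g)) = _
    rw [phi_locHom_mul]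
    rfl⟩

@[simp] theorem Phi_apply (v : HeightOneSpectrum (𝓞 K)) (z : (D.locField v)ˣ) (g : GalL L) :
    (Phi hKL D v z).1 g = Additive.ofMul (phi hKL D v z g) := rfl

theorem Phi_mul (v : HeightOneSpectrum (𝓞 K)) (z z' : (D.locField v)ˣ) :
    Phi hKL D v (z * z') = Phi hKL D v z + Phi hKL D v z' := by
  apply Subtype.ext
  funext g
  change Additive.ofMul (phi hKL D v (z * z') g) = _
  rw [phi_mul]
  rfl

theorem Phi_one (v : HeightOneSpectrum (𝓞 K)) : Phi hKL D v 1 = 0 := by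
  apply Subtype.ext
  funext g
  change Additive.ofMul (phi hKL D v 1 g) = _
  rw [phi_one]
  rfl

variable (hKL D) in
/-- the local assembly map as an additive homomorphism. -/
def PhiHom (v : HeightOneSpectrum (𝓞 K)) : Additive (D.locField v)ˣ →+ (Jq (D.ℓ v) L).V where
  toFun z := Phi hKL D v (Additive.toMul z)
  map_zero' := Phi_one v
  map_add' a b := Phi_mul v _ _

/-- `Phi v z` is fixed by `Gal(L/K)`. -/
theorem rho_Phi (v : HeightOneSpectrum (𝓞 K)) (z : (D.locField v)ˣ) {s : GalL L}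
    (hs : s ∈ fixK L K hKL) : (Jq (D.ℓ v) L).ρ s (Phi hKL D v z) = Phi hKL D v z := by
  apply Subtype.ext
  funext g
  change Additive.ofMul (phi hKL D v z (g * s)) = Additive.ofMul (phi hKL D v z g)
  rw [phi_mul_fixK v z g hs]

end Fermat.Agent.S55.SecondInst53.Assembly
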