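/-
S55 / 32c-B (helper53): the predicate "`f` is a norm from the `N`-invariants" for the layer
`N ≤ H ≤ Gal(L/ℚ)` acting on an arbitrary `B : Rep ℤ (Gal(L/ℚ))` (think `Jq q L`, `Zq L q`,
`JS L S`, `IS L S`), in the elementwise shape that the per-place lemmas (BL)(1)(2)(3) produce
and the abstract `Ψ` consumes.
-/
import Mathlib

set_option autoImplicit false

namespace Fermat.Agent.S55.SecondInst53.NormPred

open CategoryTheory

variable {G : Type} [Group G] (H : Subgroup G) (N : Subgroup H) [Fintype (H ⧸ N)]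

/-- `f` is the `H/N`-norm of an `N`-invariant element of `B` (for every system of
representatives `r` of `H/N`). -/
def IsNorm (B : Rep.{0} ℤ G) (f : B.V) : Prop :=
  ∃ w : B.V, (∀ n : N, B.ρ ((n : H) : G) w = w) ∧
    ∀ r : H ⧸ N → H, (∀ c, (r c : H ⧸ N) = c) → ∑ c, B.ρ ((r c : H) : G) w = f

variable {H N}

theorem IsNorm.zero (B : Rep.{0} ℤ G) : IsNorm H N B 0 :=
  ⟨0, fun _ => map_zero _, fun _ _ => by simp⟩

theorem IsNorm.add {B : Rep.{0} ℤ G} {f f' : B.V} (h : IsNorm H N B f) (h' : IsNorm H N B f') :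
    IsNorm H N B (f + f') := by
  obtain ⟨w, hw, hs⟩ := h
  obtain ⟨w', hw', hs'⟩ := h'
  refine ⟨w + w', fun n => by rw [map_add, hw n, hw' n], fun r hr => ?_⟩
  rw [← hs r hr, ← hs' r hr, ← Finset.sum_add_distrib]
  exact Finset.sum_congr rfl fun c _ => map_add _ _ _

theorem IsNorm.sum {B : Rep.{0} ℤ G} {ι : Type*} (s : Finset ι) (f : ι → B.V)
    (h : ∀ i ∈ s, IsNorm H N B (f i)) : IsNorm H N B (∑ i ∈ s, f i) := by
  classical
  induction s using Finset.induction_on with
  | empty => simpa using IsNorm.zero B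
  | insert a s ha ih =>
    rw [Finset.sum_insert ha]
    exact (h a (Finset.mem_insert_self a s)).add
      (ih fun i hi => h i (Finset.mem_insert_of_mem hi))

/-- norms are transported by morphisms of representations. -/
theorem IsNorm.map {B B' : Rep.{0} ℤ G} (φ : B ⟶ B') {f : B.V} (h : IsNorm H N B f) :
    IsNorm H N B' (φ.hom f) := by
  obtain ⟨w, hw, hs⟩ := h
  refine ⟨φ.hom w, fun n => by rw [← Rep.hom_comm_apply, hw n], fun r hr => ?_⟩
  rw [← hs r hr, map_sum]
  exact Finset.sum_congr rfl fun c _ => (Rep.hom_comm_apply φ _ _).symm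

/-- **(BL)(1)**: an `H`-invariant element multiplied by `|H/N|` is a norm. -/
theorem IsNorm.card_nsmul {B : Rep.{0} ℤ G} {f : B.V} (hf : ∀ h : H, B.ρ (h : G) f = f) :
    IsNorm H N B (Fintype.card (H ⧸ N) • f) := by
  refine ⟨f, fun n => hf n, fun r _ => ?_⟩
  rw [Finset.sum_congr rfl fun c _ => hf (r c), Finset.sum_const, Finset.card_univ]

end Fermat.Agent.S55.SecondInst53.NormPred
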