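/-
S55 / 32c-B (helper53): THE MAP `Ψ` OF THE BRIDGE, per level.

For a Galois level `L ⊇ K` unramified outside `S`, `H = Gal(L/K)`, `N ⊴ H` of index `p` with Kummer
generator `α` (`α ^ p = a ∈ Kˣ`, `Stab_H α = N`), `ζ_p ∈ K`:
`Ψ : ideles of K → Ĥ⁰(H/N, C_S(L)^N) = C_S(L)^H / N_{H/N} C_S(L)^N`
is a surjective homomorphism killing the principal ideles and every idele which is locally a norm
for one of the three obvious reasons (`exists_psi`).
-/
import Mathlib
import Fermat.Agent.S55.SecondInst53.Global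
import Fermat.Agent.S55.SecondInst30.SplitNorm
import Fermat.Agent.S55.SecondInst30.LayerOut
import Fermat.Agent.S55.IdeleVal44.Class
import Fermat.Agent.S55.CLDescent35.Hilbert90

set_option autoImplicit false
set_option linter.unusedSectionVars false

open IsDedekindDomain NumberField CategoryTheory

noncomputable section

namespace Fermat.Agent.S55.SecondInst53.Output

open Fermat.Agent.S55.Idele73.Basic Fermat.Agent.S55.SecondInst53.PlaceModel
  Fermat.Agent.S55.SecondInst53.Assembly Fermat.Agent.S55.IdeleVal44 Fermat.Agent.S55.SecondIneq74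
  Fermat.Agent.S55.RelDict24 Fermat.Agent.S55.SecondInst53.NormPred
  Fermat.Agent.S55.SecondInst53.Global Fermat.Agent.S55.SecondInst30.LayerOut
  Fermat.Agent.S55.Adapt77.HcycGlue

attribute [local instance] factPrimes44

variable {L K : IntermediateField ℚ Qbar} [Normal ℚ L] [FiniteDimensional ℚ L]
  [FiniteDimensional ℚ K] (hKL : K ≤ L) (D : PlaceData ↥K) {S : Finset Nat.Primes}
  (hunr : UnrOutside L S)

/-- the assembly map into the `Gal(L/K)`-invariants of `J_S(L) × I^S(L)`. -/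
def Fjis : idele (A D) (U D) →* Multiplicative (invH (JIS L S) (fixK L K hKL)) where
  toFun y := Multiplicative.ofAdd
    ⟨prodRep.mk _ _ (FA hKL D S y.1).toAdd (FB hKL D hunr y).toAdd, fun s => by
      rw [prodRep.ρ_mk, rho_FA hKL D S y.1 s.2, rho_FB hKL D hunr y s.2]⟩
  map_one' := by
    apply Multiplicative.toAdd.injective
    apply Subtype.ext
    show prodRep.mk _ _ (FA hKL D S (1 : idele (A D) (U D)).1).toAdd
      (FB hKL D hunr 1).toAdd = 0
    rw [map_one]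
    show prodRep.mk _ _ (FA hKL D S 1).toAdd _ = 0
    rw [map_one]
    rfl
  map_mul' y z := by
    apply Multiplicative.toAdd.injective
    apply Subtype.ext
    show prodRep.mk _ _ (FA hKL D S (y * z).1).toAdd (FB hKL D hunr (y * z)).toAdd =
      prodRep.mk _ _ (FA hKL D S y.1).toAdd (FB hKL D hunr y).toAdd +
        prodRep.mk _ _ (FA hKL D S z.1).toAdd (FB hKL D hunr z).toAdd
    rw [map_mul]
    show prodRep.mk _ _ (FA hKL D S (y.1 * z.1)).toAdd _ = _
    rw [map_mul]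
    rfl

theorem Fjis_val (y : idele (A D) (U D)) :
    ((Fjis hKL D hunr y).toAdd : (JIS L S).V) =
      prodRep.mk _ _ (FA hKL D S y.1).toAdd (FB hKL D hunr y).toAdd := rfl

/-- the map `Ψ` of the bridge for the layer `N ⊴ H = Gal(L/K)`. -/
def Psi (N : Subgroup ↥(fixK L K hKL)) [N.Normal] [Fintype (↥(fixK L K hKL) ⧸ N)]
    (g : ↥(fixK L K hKL) ⧸ N) :
    idele (A D) (U D) →* Multiplicative (layerPair (CS hunr) (fixK L K hKL) N g).H0 :=
  (AddMonoidHom.toMultiplicative (clsJ (fixK L K hKL) N g (toCS hunr))).comp (Fjis hKL D hunr)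

theorem Psi_apply (N : Subgroup ↥(fixK L K hKL)) [N.Normal] [Fintype (↥(fixK L K hKL) ⧸ N)]
    (g : ↥(fixK L K hKL) ⧸ N) (y : idele (A D) (U D)) :
    (Psi hKL D hunr N g y).toAdd =
      clsJ (fixK L K hKL) N g (toCS hunr) (Fjis hKL D hunr y).toAdd := rfl

set_option maxHeartbeats 1600000 in
/-- **`Ψ` is onto.** -/
theorem Psi_surjective (hS : S.Nonempty) (N : Subgroup ↥(fixK L K hKL)) [N.Normal]
    [Fintype (↥(fixK L K hKL) ⧸ N)] (g : ↥(fixK L K hKL) ⧸ N)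
    (hg : ∀ x, x ∈ Subgroup.zpowers g) : Function.Surjective (Psi hKL D hunr N g) := by
  intro q
  have hlift : ∀ c ∈ invH (CS hunr) (fixK L K hKL), ∃ j ∈ invH (JIS L S) (fixK L K hKL),
      (toCS hunr).hom j = c := by
    intro c hc
    obtain ⟨y, hy, hyc⟩ := CLDescent35.Hilbert90.exists_invariant_lift_CS hunr hS
      (fixK L K hKL) c (fun n hn => hc ⟨n, hn⟩)
    exact ⟨y, fun h => hy h.1 h.2, hyc⟩
  have hsurj := clsJ_surjective (fixK L K hKL) N (toCS hunr) hg hlift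
  obtain ⟨⟨j, hjinv⟩, hj⟩ := hsurj q.toAdd
  have hu : ∀ s ∈ fixK L K hKL, (JS L S).ρ s (prodRep.p1 _ _ j) = prodRep.p1 _ _ j := by
    intro s hs
    have h1 : (JIS L S).ρ s j = j := hjinv ⟨s, hs⟩
    have h2 : (JIS L S).ρ s (prodRep.mk _ _ (prodRep.p1 _ _ j) (prodRep.p2 _ _ j)) = j := h1
    rw [prodRep.ρ_mk] at h2
    have h3 := congrArg (prodRep.p1 (JS L S) (IS L S)) h2
    exact h3
  have hw : ∀ s ∈ fixK L K hKL, (IS L S).ρ s (prodRep.p2 _ _ j) = prodRep.p2 _ _ j := by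
    intro s hs
    have h1 : (JIS L S).ρ s j = j := hjinv ⟨s, hs⟩
    have h2 : (JIS L S).ρ s (prodRep.mk _ _ (prodRep.p1 _ _ j) (prodRep.p2 _ _ j)) = j := h1
    rw [prodRep.ρ_mk] at h2
    have h3 := congrArg (prodRep.p2 (JS L S) (IS L S)) h2
    exact h3
  have hex := exists_idele_of_invariant hKL D hunr
    (prodRep.p1 (JS L S) (IS L S) j) (prodRep.p2 (JS L S) (IS L S) j) hu hw
  obtain ⟨y, hy1, hy2⟩ := hex
  refine ⟨y, ?_⟩
  have h1 : ((Fjis hKL D hunr y).toAdd : (JIS L S).V) = j := by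
    rw [Fjis_val, hy1, hy2]
    rfl
  have h2 : (Fjis hKL D hunr y).toAdd = (⟨j, hjinv⟩ : invH (JIS L S) (fixK L K hKL)) :=
    Subtype.ext h1
  have h3 : (Psi hKL D hunr N g y).toAdd = q.toAdd :=
    (Psi_apply hKL D hunr N g y).trans
      ((congrArg (clsJ (fixK L K hKL) N g (toCS hunr)) h2).trans hj)
  exact Multiplicative.toAdd.injective h3

set_option maxHeartbeats 1600000 in
/-- **`Ψ` kills the principal ideles.** -/
theorem Psi_diag (N : Subgroup ↥(fixK L K hKL)) [N.Normal] [Fintype (↥(fixK L K hKL) ⧸ N)]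
    (g : ↥(fixK L K hKL) ⧸ N) (c : (↥K)ˣ) :
    Psi hKL D hunr N g ⟨diag (A D) (ι D) c, hfin D c⟩ = 1 := by
  have h1 : (toCS hunr).hom
      ((Fjis hKL D hunr ⟨diag (A D) (ι D) c, hfin D c⟩).toAdd : (JIS L S).V) = 0 := by
    rw [Fjis_val, FA_diag, FB_diag]
    exact toCS_deltaS_apply hunr (toLxK hKL c)
  have h2 : (Psi hKL D hunr N g ⟨diag (A D) (ι D) c, hfin D c⟩).toAdd = 0 :=
    (Psi_apply hKL D hunr N g _).trans
      (clsJ_eq_zero_of_map_eq_zero (fixK L K hKL) N (toCS hunr) _ h1)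
  exact Multiplicative.toAdd.injective h2

set_option maxHeartbeats 1600000 in
/-- **`Ψ` kills the ideles which are norms prime by prime.** -/
theorem Psi_eq_one_of_isNorm (N : Subgroup ↥(fixK L K hKL)) [N.Normal]
    [Fintype (↥(fixK L K hKL) ⧸ N)] (g : ↥(fixK L K hKL) ⧸ N) (y : idele (A D) (U D))
    (h : ∀ (q : ℕ) [Fact q.Prime],
      IsNorm (fixK L K hKL) N (Jq q L) (PhiQ hKL D q y.1).toAdd) :
    Psi hKL D hunr N g y = 1 := by
  obtain ⟨w₁, hw₁, hs₁⟩ := isNorm_FA hKL D (S := S) N y.1 (fun q => h q.1.1)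
  obtain ⟨w₂, hw₂, hs₂⟩ := isNorm_FB hKL D hunr N y (fun ℓ => h ℓ.1.1)
  have hz : ∀ n : N, (JIS L S).ρ ((n : ↥(fixK L K hKL)) : GalL L) (prodRep.mk _ _ w₁ w₂) =
      prodRep.mk _ _ w₁ w₂ := by
    intro n
    rw [prodRep.ρ_mk, hw₁ n, hw₂ n]
  have hsum : ∑ c : ↥(fixK L K hKL) ⧸ N,
      (JIS L S).ρ (((Quotient.out c : ↥(fixK L K hKL))) : GalL L) (prodRep.mk _ _ w₁ w₂) =
      ((Fjis hKL D hunr y).toAdd : (JIS L S).V) := by
    rw [Fjis_val, ← hs₁ _ (fun c => QuotientGroup.out_eq' c),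
      ← hs₂ _ (fun c => QuotientGroup.out_eq' c)]
    simp only [prodRep.ρ_mk]
    show (∑ c : ↥(fixK L K hKL) ⧸ N,
      (((JS L S).ρ (((Quotient.out c : ↥(fixK L K hKL))) : GalL L) w₁,
        (IS L S).ρ (((Quotient.out c : ↥(fixK L K hKL))) : GalL L) w₂) :
          (JS L S).V × (IS L S).V)) = (_, _)
    rw [Prod.ext_iff, Prod.fst_sum, Prod.snd_sum]
    exact ⟨rfl, rfl⟩
  have h2 : (Psi hKL D hunr N g y).toAdd = 0 :=
    (Psi_apply hKL D hunr N g y).trans
      (clsJ_eq_zero_of_norm (fixK L K hKL) N (toCS hunr) _ (prodRep.mk _ _ w₁ w₂) hz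
        (fun c => Quotient.out c) (fun c => QuotientGroup.out_eq' c) hsum)
  exact Multiplicative.toAdd.injective h2

set_option maxHeartbeats 1600000 in
/-- **The per-level theorem of the bridge.** -/
theorem exists_psi (hS : S.Nonempty) (N : Subgroup ↥(fixK L K hKL)) [N.Normal]
    [Fintype (↥(fixK L K hKL) ⧸ N)] {p : ℕ} [Fact p.Prime]
    (hcard : Fintype.card (↥(fixK L K hKL) ⧸ N) = p) (g : ↥(fixK L K hKL) ⧸ N)
    (hg : ∀ x, x ∈ Subgroup.zpowers g) {α ζ : ↥L}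
    (hstab : ∀ h : ↥(fixK L K hKL), (h : GalL L) α = α ↔ h ∈ N)
    (hζ : IsPrimitiveRoot ζ p) (hζH : ∀ h : ↥(fixK L K hKL), (h : GalL L) ζ = ζ) (a : (↥K)ˣ)
    (ha : incl L K hKL (a : ↥K) = α ^ p) :
    ∃ Ψ : idele (A D) (U D) →* Multiplicative (layerPair (CS hunr) (fixK L K hKL) N g).H0,
      Function.Surjective Ψ ∧ (∀ c : (↥K)ˣ, Ψ ⟨diag (A D) (ι D) c, hfin D c⟩ = 1) ∧
      ∀ y : idele (A D) (U D),
        (∀ v, y.1 v ∈ Pw (A D) p v ∨ ι D v a ∈ Pw (A D) p v ∨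
          (v ∈ tame (K := ↥K) p ∧ ι D v a ∈ U D v ∧ y.1 v ∈ U D v)) → Ψ y = 1 := by
  refine ⟨Psi hKL D hunr N g, Psi_surjective hKL D hunr hS N g hg, Psi_diag hKL D hunr N g, ?_⟩
  intro y hy
  apply Psi_eq_one_of_isNorm
  intro q _
  apply PhiQ_isNorm
  intro v _
  exact SecondInst30.SplitNorm.isNorm_Phi_of_cases hKL D N hcard hstab hζ hζH a ha v
    (y.1 (Sum.inl v)) (hy (Sum.inl v))

end Fermat.Agent.S55.SecondInst53.Output
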