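/-
S55 / 32c-B (helper57, for helper53): the ABSTRACT map `Ψ` of the second inequality.

For a class module `C` presented as a cokernel `X → A × B → C → 0` over `G`, a layer
`N ⊴ H ≤ G` with `H ⧸ N` finite and a generator `g`, and a commutative group `Y` with two
homomorphisms `FA : Y → A^H`, `FB : Y → B^H` (written multiplicatively), we build

  `psi : Y →* Multiplicative (layerPair C H N g).H0`,  `y ↦ [a (FA y) + b (FB y)]`,

and prove
* `psi_surjective` (Hilbert 90 for `X` on `H`, exactness, and `Y ↠ A^H × B^H`),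
* `psi_eq_one_of_diag` (the diagonal image of `X` dies),
* `psi_eq_one_of_isNorm` (pairs of `H ⧸ N`-norms die).
-/
import Mathlib
import Fermat.Agent.S55.Adapt77.HcycGlue
import Fermat.Agent.S55.SecondInst53.NormPred
import Fermat.Agent.S55.FirstIneq27.Layer

set_option autoImplicit false

namespace Fermat.Agent.S55.SecondInst53.AbsPsi

open CategoryTheory Rep
open Fermat.Agent.S55.Herbrand54 Fermat.Agent.S55.HerbrandCyclic54 Fermat.Agent.S55.HerbrandHcyc54
open Fermat.Agent.S55.Adapt77.HcycGlue Fermat.Agent.S55.FirstIneq27.Layer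
open Fermat.Agent.S55.SecondInst53

variable {G : Type} [Group G] {X A B C : Rep.{0, 0, 0} ℤ G}
variable (α : X ⟶ A) (β : X ⟶ B) (a : A ⟶ C) (b : B ⟶ C)
variable (H : Subgroup G) (N : Subgroup H) [N.Normal] [Fintype (H ⧸ N)] (g : H ⧸ N)

section Basic

/-- an `H`-invariant vector of `C`, as an element of the layer `(Res_H C)^N`. -/
def invMk (c : C.V) (hc : ∀ h : H, C.ρ (h : G) c = c) : (layer C H N).V :=
  layerMk H N c (fun n => hc (n : H))

omit [Fintype (H ⧸ N)] in
theorem invMk_val (c : C.V) (hc : ∀ h : H, C.ρ (h : G) c = c) : (invMk H N c hc).1 = c := rfl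

theorem invMk_mem_ker (c : C.V) (hc : ∀ h : H, C.ρ (h : G) c = c) :
    (layerPair C H N g).f (invMk H N c hc) = 0 := by
  obtain ⟨h, rfl⟩ := QuotientGroup.mk_surjective g
  rw [cyclicPair_f_apply, repRhoM_apply, sub_eq_zero]
  apply Subtype.ext
  rw [layer_rho_val, invMk_val]
  exact hc h

/-- the class in `H0` of an `H`-invariant vector of `C`. -/
noncomputable def invCls (c : C.V) (hc : ∀ h : H, C.ρ (h : G) c = c) : (layerPair C H N g).H0 :=
  (layerPair C H N g).cls (invMk H N c hc) (invMk_mem_ker H N g c hc)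

theorem invCls_congr {c c' : C.V} (h : c = c') (hc : ∀ h : H, C.ρ (h : G) c = c)
    (hc' : ∀ h : H, C.ρ (h : G) c' = c') : invCls H N g c hc = invCls H N g c' hc' := by
  subst h
  rfl

theorem invCls_add (c c' : C.V) (hc : ∀ h : H, C.ρ (h : G) c = c)
    (hc' : ∀ h : H, C.ρ (h : G) c' = c') :
    invCls H N g (c + c') (fun h => by rw [map_add, hc h, hc' h]) =
      invCls H N g c hc + invCls H N g c' hc' := rfl

theorem invCls_zero : invCls H N g (0 : C.V) (fun _ => map_zero _) = 0 := by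
  unfold invCls
  rw [Pair.cls_eq_zero_iff]
  exact ⟨0, by rw [map_zero]; rfl⟩

theorem invCls_eq_zero_of_eq_zero {c : C.V} (h0 : c = 0) (hc : ∀ h : H, C.ρ (h : G) c = c) :
    invCls H N g c hc = 0 := by
  subst h0
  exact invCls_zero H N g

/-- every class of `H0` of the layer is the class of an `H`-invariant vector. -/
theorem invCls_surj (hg : ∀ x, x ∈ Subgroup.zpowers g) (z : (layerPair C H N g).H0) :
    ∃ (c : C.V) (hc : ∀ h : H, C.ρ (h : G) c = c), invCls H N g c hc = z := by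
  obtain ⟨x, hx, rfl⟩ := (layerPair C H N g).cls_surj z
  have hinv := (cyclicPair_f_eq_zero_iff (repRhoM (layer C H N)) hg x).mp hx
  have hc : ∀ h : H, C.ρ (h : G) x.1 = x.1 := by
    intro h
    have := congrArg Subtype.val (hinv (QuotientGroup.mk h))
    rwa [repRhoM_apply, layer_rho_val] at this
  exact ⟨x.1, hc, rfl⟩

/-- the class of an `H ⧸ N`-norm of an `N`-invariant vector vanishes. -/
theorem invCls_eq_zero_of_isNorm {c : C.V} (hc : ∀ h : H, C.ρ (h : G) c = c)
    (hn : NormPred.IsNorm H N C c) : invCls H N g c hc = 0 := by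
  obtain ⟨w, hw, hs⟩ := hn
  unfold invCls
  rw [Pair.cls_eq_zero_iff]
  refine ⟨layerMk H N w hw, ?_⟩
  rw [cyclicPair_g_apply, HerbrandCyclic54.normHom_apply]
  apply Subtype.ext
  rw [invMk_val, AddSubmonoidClass.coe_finsetSum]
  rw [← hs (fun c => Quotient.out c) (fun c => QuotientGroup.out_eq' c)]
  refine Finset.sum_congr rfl fun τ _ => ?_
  have h1 : repRhoM (layer C H N) τ (layerMk H N w hw) =
      (layer C H N).ρ (QuotientGroup.mk (Quotient.out τ)) (layerMk H N w hw) := by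
    rw [repRhoM_apply, QuotientGroup.out_eq']
  rw [h1, layer_rho_val, layerMk_val]

end Basic

section Psi

variable {Y : Type*} [CommGroup Y] (FA : Y →* Multiplicative A.V) (FB : Y →* Multiplicative B.V)
variable (hFA : ∀ (y : Y) (h : H), A.ρ (h : G) (FA y).toAdd = (FA y).toAdd)
variable (hFB : ∀ (y : Y) (h : H), B.ρ (h : G) (FB y).toAdd = (FB y).toAdd)

include hFA hFB in
theorem sum_fixed (y : Y) (h : H) :
    C.ρ (h : G) (a.hom (FA y).toAdd + b.hom (FB y).toAdd) =
      a.hom (FA y).toAdd + b.hom (FB y).toAdd := by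
  rw [map_add, ← Rep.hom_comm_apply, ← Rep.hom_comm_apply, hFA y h, hFB y h]

/-- **the abstract map `Ψ`**: `y ↦ [a (FA y) + b (FB y)] ∈ Ĥ⁰(H ⧸ N, C^N)`. -/
noncomputable def psi : Y →* Multiplicative (layerPair C H N g).H0 :=
  MonoidHom.mk'
    (fun y => Multiplicative.ofAdd
      (invCls H N g (a.hom (FA y).toAdd + b.hom (FB y).toAdd) (sum_fixed a b H FA FB hFA hFB y)))
    (by
      intro y y'
      rw [← ofAdd_add, ← invCls_add]
      congr 1
      apply invCls_congr
      rw [FA.map_mul, FB.map_mul, toAdd_mul, toAdd_mul, map_add, map_add]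
      abel)

theorem psi_apply (y : Y) :
    psi a b H N g FA FB hFA hFB y = Multiplicative.ofAdd
      (invCls H N g (a.hom (FA y).toAdd + b.hom (FB y).toAdd)
        (sum_fixed a b H FA FB hFA hFB y)) := rfl

theorem psi_eq_one_iff (y : Y) :
    psi a b H N g FA FB hFA hFB y = 1 ↔
      invCls H N g (a.hom (FA y).toAdd + b.hom (FB y).toAdd)
        (sum_fixed a b H FA FB hFA hFB y) = 0 := by
  rw [psi_apply]
  exact ofAdd_eq_one

/-- **`Ψ` is onto** (Hilbert 90 for `X` on `H` + exactness + `Y ↠ A^H × B^H`). -/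
theorem psi_surjective (hg : ∀ x, x ∈ Subgroup.zpowers g)
    (hex : ∀ (u : A.V) (v : B.V), a.hom u + b.hom v = 0 ↔ ∃ x : X.V, α.hom x = u ∧ β.hom x = v)
    (hsurj : ∀ c : C.V, ∃ (u : A.V) (v : B.V), a.hom u + b.hom v = c)
    (hinj : ∀ x : X.V, α.hom x = 0 → β.hom x = 0 → x = 0)
    (hH90 : ∀ z : H → X.V, (∀ s t : H, z (s * t) = X.ρ (s : G) (z t) + z s) →
      ∃ y : X.V, ∀ s : H, X.ρ (s : G) y - y = z s)
    (hF : ∀ (u : A.V) (v : B.V), (∀ h : H, A.ρ (h : G) u = u) → (∀ h : H, B.ρ (h : G) v = v) →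
      ∃ y : Y, (FA y).toAdd = u ∧ (FB y).toAdd = v) :
    Function.Surjective (psi a b H N g FA FB hFA hFB) := by
  intro z
  obtain ⟨c, hc, hz⟩ := invCls_surj H N g hg z.toAdd
  obtain ⟨u, v, huv⟩ := hsurj c
  -- the cocycle `h ↦ (h u - u, h v - v)` comes from `X`
  have hz' : ∀ s : H, ∃ x : X.V, α.hom x = A.ρ (s : G) u - u ∧ β.hom x = B.ρ (s : G) v - v := by
    intro s
    apply (hex _ _).mp
    rw [map_sub, map_sub, Rep.hom_comm_apply, Rep.hom_comm_apply]
    calc C.ρ (s : G) (a.hom u) - a.hom u + (C.ρ (s : G) (b.hom v) - b.hom v)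
        = C.ρ (s : G) (a.hom u + b.hom v) - (a.hom u + b.hom v) := by
          rw [map_add]; abel
      _ = 0 := by rw [huv, hc s, sub_self]
  choose ζ hζα hζβ using hz'
  have hcoc : ∀ s t : H, ζ (s * t) = X.ρ (s : G) (ζ t) + ζ s := by
    intro s t
    have h1 : α.hom (ζ (s * t) - (X.ρ (s : G) (ζ t) + ζ s)) = 0 := by
      rw [map_sub, map_add, Rep.hom_comm_apply, hζα, hζα, hζα]
      have : ((s * t : H) : G) = (s : G) * (t : G) := rfl
      rw [this, map_mul, map_sub]
      simp only [Module.End.mul_apply]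
      abel
    have h2 : β.hom (ζ (s * t) - (X.ρ (s : G) (ζ t) + ζ s)) = 0 := by
      rw [map_sub, map_add, Rep.hom_comm_apply, hζβ, hζβ, hζβ]
      have : ((s * t : H) : G) = (s : G) * (t : G) := rfl
      rw [this, map_mul, map_sub]
      simp only [Module.End.mul_apply]
      abel
    exact sub_eq_zero.mp (hinj _ h1 h2)
  obtain ⟨y₀, hy₀⟩ := hH90 ζ hcoc
  have hu' : ∀ s : H, A.ρ (s : G) (u - α.hom y₀) = u - α.hom y₀ := by
    intro s
    have := hζα s
    rw [← hy₀ s, map_sub, Rep.hom_comm_apply] at this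
    rw [map_sub]
    have h3 : A.ρ (s : G) u - A.ρ (s : G) (α.hom y₀) - (u - α.hom y₀) = 0 := by
      have h4 : A.ρ (s : G) u - A.ρ (s : G) (α.hom y₀) - (u - α.hom y₀) =
          (A.ρ (s : G) u - u) - (A.ρ (s : G) (α.hom y₀) - α.hom y₀) := by abel
      rw [h4, this, sub_self]
    exact sub_eq_zero.mp h3
  have hv' : ∀ s : H, B.ρ (s : G) (v - β.hom y₀) = v - β.hom y₀ := by
    intro s
    have := hζβ s
    rw [← hy₀ s, map_sub, Rep.hom_comm_apply] at this
    rw [map_sub]
    have h3 : B.ρ (s : G) v - B.ρ (s : G) (β.hom y₀) - (v - β.hom y₀) = 0 := by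
      have h4 : B.ρ (s : G) v - B.ρ (s : G) (β.hom y₀) - (v - β.hom y₀) =
          (B.ρ (s : G) v - v) - (B.ρ (s : G) (β.hom y₀) - β.hom y₀) := by abel
      rw [h4, this, sub_self]
    exact sub_eq_zero.mp h3
  obtain ⟨y, hyA, hyB⟩ := hF _ _ hu' hv'
  refine ⟨y, ?_⟩
  rw [psi_apply]
  apply Multiplicative.toAdd.injective
  rw [toAdd_ofAdd, ← hz]
  apply invCls_congr
  rw [hyA, hyB, map_sub, map_sub, ← huv]
  have h0 : a.hom (α.hom y₀) + b.hom (β.hom y₀) = 0 := (hex _ _).mpr ⟨y₀, rfl, rfl⟩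
  have : a.hom u - a.hom (α.hom y₀) + (b.hom v - b.hom (β.hom y₀)) =
      a.hom u + b.hom v - (a.hom (α.hom y₀) + b.hom (β.hom y₀)) := by abel
  rw [this, h0, sub_zero]

/-- **`Ψ` kills the diagonal image of `X`.** -/
theorem psi_eq_one_of_diag
    (hex : ∀ (u : A.V) (v : B.V), a.hom u + b.hom v = 0 ↔ ∃ x : X.V, α.hom x = u ∧ β.hom x = v)
    (y : Y) (x : X.V) (h1 : (FA y).toAdd = α.hom x) (h2 : (FB y).toAdd = β.hom x) :
    psi a b H N g FA FB hFA hFB y = 1 := by
  rw [psi_eq_one_iff]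
  apply invCls_eq_zero_of_eq_zero
  rw [h1, h2]
  exact (hex _ _).mpr ⟨x, rfl, rfl⟩

/-- **`Ψ` kills pairs of `H ⧸ N`-norms.** -/
theorem psi_eq_one_of_isNorm (y : Y) (h1 : NormPred.IsNorm H N A (FA y).toAdd)
    (h2 : NormPred.IsNorm H N B (FB y).toAdd) :
    psi a b H N g FA FB hFA hFB y = 1 := by
  rw [psi_eq_one_iff]
  apply invCls_eq_zero_of_isNorm
  exact (h1.map a).add (h2.map b)

/-- the kernel form: if `FA y`, `FB y` differ from a pair of norms by a diagonal element of `X`,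
then `Ψ y = 1`. -/
theorem psi_eq_one_of_diag_add_isNorm
    (hex : ∀ (u : A.V) (v : B.V), a.hom u + b.hom v = 0 ↔ ∃ x : X.V, α.hom x = u ∧ β.hom x = v)
    (y : Y) (x : X.V) (u : A.V) (v : B.V) (hu : NormPred.IsNorm H N A u)
    (hv : NormPred.IsNorm H N B v)
    (h1 : (FA y).toAdd = α.hom x + u) (h2 : (FB y).toAdd = β.hom x + v) :
    psi a b H N g FA FB hFA hFB y = 1 := by
  rw [psi_eq_one_iff]
  apply invCls_eq_zero_of_isNorm
  have h0 : a.hom (α.hom x) + b.hom (β.hom x) = 0 := (hex _ _).mpr ⟨x, rfl, rfl⟩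
  have : a.hom (FA y).toAdd + b.hom (FB y).toAdd = a.hom u + b.hom v := by
    rw [h1, h2, map_add, map_add]
    have : a.hom (α.hom x) + a.hom u + (b.hom (β.hom x) + b.hom v) =
        (a.hom (α.hom x) + b.hom (β.hom x)) + (a.hom u + b.hom v) := by abel
    rw [this, h0, zero_add]
  rw [this]
  exact (hu.map a).add (hv.map b)

/-- **the counting wrap-up**: if `Ψ` is onto and kills a subgroup `K` of `Y`, then
`|Ĥ⁰(H ⧸ N, C^N)|` divides the index of `K`. -/
theorem card_H0_dvd_index (hsurj : Function.Surjective (psi a b H N g FA FB hFA hFB))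
    (K : Subgroup Y) (hK : ∀ y ∈ K, psi a b H N g FA FB hFA hFB y = 1) :
    Nat.card (layerPair C H N g).H0 ∣ K.index := by
  have hle : K ≤ (psi a b H N g FA FB hFA hFB).ker := fun y hy => MonoidHom.mem_ker.mpr (hK y hy)
  have h1 : (psi a b H N g FA FB hFA hFB).ker.index = Nat.card (layerPair C H N g).H0 := by
    rw [Subgroup.index_ker, MonoidHom.range_eq_top.mpr hsurj]
    rw [Nat.card_congr (Subgroup.topEquiv (G := Multiplicative (layerPair C H N g).H0)).toEquiv]
    exact Nat.card_congr Multiplicative.toAdd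
  rw [← h1]
  exact Subgroup.index_dvd_of_le hle

end Psi

end Fermat.Agent.S55.SecondInst53.AbsPsi
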