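/-
S55 / 32c-B (helper53): (B4) THE OUTPUT OF THE SECOND INEQUALITY from `FI`.

`secondIneqOut_of_FI`: for a finite Galois level `L/ℚ` unramified outside `S ≠ ∅`, `p` odd,
`ζ_p ∈ L`, and every subgroup `H₀ ≤ Gal(L/ℚ)` fixing `ζ_p`: if the hypothesis `FI` of the abstract
second inequality holds on the place model of every intermediate field `K ∋ ζ_p` of `L`, then
`Adapt77.HcycGlue.SecondIneqOut (IdeleVal44.CS hunr) H₀ p`, i.e. `|Ĥ⁰(H/N, C_S(L)^N)| ∣ p` for all
layers `N ⊴ H ≤ H₀` of order `p`.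

Assembly: `SecondInst30.Main3.second_inequality_Kside` (K-side, unconditional) +
`SecondInst53.Output.exists_psi` (the bridge map) + `SecondInst30.LayerKummer` (Kummer generator of
the layer) + `SecondInst30.FixK` (`H = fixK L (Kof L H)`) + `UnrBridge42.nonempty_placeData`.
-/
import Mathlib
import Fermat.Agent.S55.SecondInst53.Output
import Fermat.Agent.S55.SecondInst30.Main3
import Fermat.Agent.S55.SecondInst30.FixK
import Fermat.Agent.S55.SecondInst30.BLGlobal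
import Fermat.Agent.S55.UnrBridge42.Orbit

set_option autoImplicit false
set_option linter.unusedSectionVars false

open IsDedekindDomain NumberField CategoryTheory

noncomputable section

namespace Fermat.Agent.S55.SecondInst53.Final

open Fermat.Agent.S55.Idele73.Basic Fermat.Agent.S55.SecondInst53.PlaceModel
  Fermat.Agent.S55.SecondInst53.Assembly Fermat.Agent.S55.IdeleVal44 Fermat.Agent.S55.SecondIneq74
  Fermat.Agent.S55.Adapt77.HcycGlue Fermat.Agent.S55.SecondInst30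

variable {L : IntermediateField ℚ Qbar} [Normal ℚ L] [FiniteDimensional ℚ L]
  {S : Finset Nat.Primes} (hunr : UnrOutside L S)

set_option maxHeartbeats 1600000 in
/-- the second inequality for one layer `N ⊴ H = Gal(L/K)`, given `FI` for `K`. -/
theorem card_H0_dvd_of_FI (hS : S.Nonempty) {p : ℕ} [Fact p.Prime] (hp2 : 2 < p)
    {K : IntermediateField ℚ Qbar} [FiniteDimensional ℚ K] (hKL : K ≤ L) (D : PlaceData ↥K)
    (hFI : ∀ ζ' : ↥K, IsPrimitiveRoot ζ' p → FI (A D) (ι D) (U D) p (tame p))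
    (N : Subgroup ↥(fixK L K hKL)) [N.Normal] [Fintype (↥(fixK L K hKL) ⧸ N)]
    (hcard : Nat.card (↥(fixK L K hKL) ⧸ N) = p) (g : ↥(fixK L K hKL) ⧸ N)
    (hg : ∀ x, x ∈ Subgroup.zpowers g) {ζ : ↥L} (hζ : IsPrimitiveRoot ζ p)
    (hζH : ∀ h : ↥(fixK L K hKL), (h : GalL L) ζ = ζ) :
    Nat.card (layerPair (CS hunr) (fixK L K hKL) N g).H0 ∣ p := by
  classical
  have hp : p.Prime := Fact.out
  have : Finite (GalL L) := inferInstance
  have : Finite ↥(fixK L K hKL) := inferInstance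
  -- the Kummer generator of the layer
  obtain ⟨α, hα0, hstab, hfix, hnp⟩ :=
    LayerKummer.exists_kummer_generator (F := ℚ) (E := L) (fixK L K hKL) N hcard hζ hζH
  obtain ⟨ζ', hζ'⟩ := SplitNorm.exists_incl_eq_of_fixed hKL ζ hζH
  obtain ⟨a₀, ha₀⟩ := SplitNorm.exists_incl_eq_of_fixed hKL (α ^ p) hfix
  have hζ'p : IsPrimitiveRoot ζ' p := by
    have : IsPrimitiveRoot (incl L K hKL ζ') p := by rw [hζ']; exact hζ
    exact IsPrimitiveRoot.of_map_of_injective this (incl L K hKL).injective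
  have ha₀0 : a₀ ≠ 0 := by
    rintro rfl
    rw [map_zero] at ha₀
    exact hα0 (pow_eq_zero_iff hp.ne_zero |>.mp ha₀.symm)
  set a : (↥K)ˣ := Units.mk0 a₀ ha₀0 with ha_def
  have ha : incl L K hKL (a : ↥K) = α ^ p := ha₀
  have haPK : a ∉ PK (K := ↥K) p := by
    rintro ⟨c, hc⟩
    have hc' : (c : ↥K) ^ p = a₀ := by
      have h1 := congrArg (fun u : (↥K)ˣ => (u : ↥K)) hc
      have h2 : ((c ^ p : (↥K)ˣ) : ↥K) = (a : ↥K) := h1
      rw [Units.val_pow_eq_pow_val] at h2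
      exact h2
    apply hnp (incl L K hKL (c : ↥K)) (fun h => h.2 _)
    rw [← map_pow, hc', ha₀]
  -- the K-side
  obtain ⟨S₀, hK⟩ := Main3.second_inequality_Kside D hp2 hζ'p
  -- the finite set of places
  have hp0 : ((p : ℕ) : 𝓞 ↥K) ≠ 0 := Nat.cast_ne_zero.mpr hp.ne_zero
  have hT : (Set.range (Sum.inr : InfinitePlace ↥K → V ↥K) ∪
      (Sum.inl '' {P : HeightOneSpectrum (𝓞 ↥K) | ((p : ℕ) : 𝓞 ↥K) ∈ P.asIdeal} ∪
        (Sum.inl '' (S₀ : Set (HeightOneSpectrum (𝓞 ↥K))) ∪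
          {v | ι D v a ∉ U D v}))).Finite :=
    (Set.finite_range _).union (((finite_setOf_mem_asIdeal hp0).image _).union
      ((S₀.finite_toSet.image _).union (hfin D a)))
  set Sc : Finset (V ↥K) := hT.toFinset with hSc
  have hinf : ∀ w : InfinitePlace ↥K, Sum.inr w ∈ Sc := by
    intro w
    rw [hSc, Set.Finite.mem_toFinset]
    exact Or.inl ⟨w, rfl⟩
  have hwild : ∀ P : HeightOneSpectrum (𝓞 ↥K), ((p : ℕ) : 𝓞 ↥K) ∈ P.asIdeal →
      Sum.inl P ∈ Sc := by
    intro P hP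
    rw [hSc, Set.Finite.mem_toFinset]
    exact Or.inr (Or.inl ⟨P, hP, rfl⟩)
  have hS₀ : ∀ P ∈ S₀, Sum.inl P ∈ Sc := by
    intro P hP
    rw [hSc, Set.Finite.mem_toFinset]
    exact Or.inr (Or.inr (Or.inl ⟨P, hP, rfl⟩))
  have haS : a ∈ sUnits (A D) (ι D) (U D) Sc := by
    rw [mem_sUnits]
    intro v hv
    by_contra hcon
    apply hv
    rw [hSc, Set.Finite.mem_toFinset]
    exact Or.inr (Or.inr (Or.inr hcon))
  -- the bridge map
  have hcard' : Fintype.card (↥(fixK L K hKL) ⧸ N) = p := by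
    rw [← Nat.card_eq_fintype_card]; exact hcard
  obtain ⟨Ψ, hΨ, hdiag, hloc⟩ := Output.exists_psi hKL D hunr hS N hcard' g hg hstab hζ hζH a ha
  have hmain := hK Sc hinf hwild hS₀ (hFI ζ' hζ'p) a haPK haS Ψ hΨ hdiag (by
    intro y h1 h2
    apply hloc
    rintro (v | w)
    · exact BLGlobal.cases_of_hBL D Sc hinf hwild a haS y.1 h1 h2 v
    · exact Or.inl (h1 _ (hinf w)))
  rwa [Nat.card_congr (Multiplicative.toAdd (α := (layerPair (CS hunr) (fixK L K hKL) N g).H0))]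
    at hmain

/-- transport: the same for a subgroup `H` which IS a `fixK`. -/
theorem card_H0_dvd_of_eq_fixK (hS : S.Nonempty) {p : ℕ} [Fact p.Prime] (hp2 : 2 < p)
    {K : IntermediateField ℚ Qbar} [FiniteDimensional ℚ K] (hKL : K ≤ L)
    (hFI : ∀ (D : PlaceData ↥K) (ζ' : ↥K), IsPrimitiveRoot ζ' p →
      FI (A D) (ι D) (U D) p (tame p))
    (H : Subgroup (GalL L)) (e : H = fixK L K hKL)
    (N : Subgroup ↥H) [N.Normal] [Fintype (↥H ⧸ N)]
    (hcard : Nat.card (↥H ⧸ N) = p) (g : ↥H ⧸ N)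
    (hg : ∀ x, x ∈ Subgroup.zpowers g) {ζ : ↥L} (hζ : IsPrimitiveRoot ζ p)
    (hζH : ∀ h ∈ H, h ζ = ζ) :
    Nat.card (layerPair (CS hunr) H N g).H0 ∣ p := by
  subst e
  obtain ⟨D⟩ := UnrBridge42.nonempty_placeData ↥K
  exact card_H0_dvd_of_FI hunr hS hp2 hKL D (hFI D) N hcard g hg hζ (fun h => hζH h.1 h.2)

/-- **(B4) the output of the second inequality, from `FI`.** -/
theorem secondIneqOut_of_FI (hS : S.Nonempty) {p : ℕ} [Fact p.Prime] (hp2 : 2 < p) {ζ : ↥L}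
    (hζ : IsPrimitiveRoot ζ p) (H₀ : Subgroup (GalL L)) (hH₀ : ∀ g ∈ H₀, g ζ = ζ)
    (hFI : ∀ (K : IntermediateField ℚ Qbar) [FiniteDimensional ℚ K], K ≤ L →
      ∀ (D : PlaceData ↥K) (ζ' : ↥K), IsPrimitiveRoot ζ' p →
        FI (A D) (ι D) (U D) p (tame p)) :
    SecondIneqOut (CS hunr) H₀ p := by
  intro H hH N _ hcard _ g hg
  exact card_H0_dvd_of_eq_fixK hunr hS hp2 (FixK.Kof_le L H)
    (fun D ζ' hζ' => hFI (FixK.Kof L H) (FixK.Kof_le L H) D ζ' hζ') H (FixK.fixK_Kof L H).symm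
    N hcard g hg hζ (fun h hh => hH₀ h (hH hh))

end Fermat.Agent.S55.SecondInst53.Final
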