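/-
S55 / 32c-B (helper53): the GLOBAL ASSEMBLY MAP from the ideles of the place model of `K` to
`J_S(L) × I^S(L)` (helper44's `IdeleVal44.JS`, `IdeleVal44.IS`) for a Galois level `L ⊇ K`
unramified outside `S`, prime by prime through helper24's `RelDict24.PhiQ`:

* `FA y ∈ J_S(L)`  has `q`-coordinate `PhiQ q y` (`q ∈ S`),
* `FB y ∈ I^S(L)`  has `ℓ`-coordinate `valZ (PhiQ ℓ y)` (`ℓ ∉ S`; zero when `y` is a unit above `ℓ`).

Proved: homomorphisms, `Gal(L/K)`-invariance, principal ideles go to `(diagS c, idealMap c)`,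
surjectivity onto the `Gal(L/K)`-invariants of `J_S × I^S`, and the norm criterion
(`IsNorm` prime by prime ⇒ `IsNorm` of `FA y`, `FB y`).
-/
import Mathlib
import Fermat.Agent.S55.SecondInst53.Assembly
import Fermat.Agent.S55.SecondInst53.NormPred
import Fermat.Agent.S55.RelDict24.PhiQ
import Fermat.Agent.S55.IdeleVal44.Ideal
import Fermat.Agent.S55.SecondIneq74.Core

set_option autoImplicit false
set_option linter.unusedSectionVars false

open IsDedekindDomain NumberField CategoryTheory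
open scoped DirectSum

noncomputable section

namespace Fermat.Agent.S55.SecondInst53.Global

open Fermat.Agent.S55.Idele73.Basic Fermat.Agent.S55.SecondInst53.PlaceModel
  Fermat.Agent.S55.SecondInst53.Assembly Fermat.Agent.S55.IdeleVal44 Fermat.Agent.S55.SecondIneq74
  Fermat.Agent.S55.RelDict24 Fermat.Agent.S55.SecondInst53.NormPred

attribute [local instance] factPrimes44

section Families

variable {L : IntermediateField ℚ Qbar} [Normal ℚ L] (S : Finset Nat.Primes)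

/-- families indexed by `S` as elements of `J_S(L)`. -/
def mkJS (F : ∀ q : InS S, (Jq q.1.1 L).V) : (JS L S).V :=
  dsRep.ofDS _ ((@DFinsupp.equivFunOnFintype (InS S) (fun q => (Jq q.1.1 L).V)
    (fun _ => inferInstance) _).symm F)

theorem toDS_mkJS (F : ∀ q : InS S, (Jq q.1.1 L).V) (q : InS S) :
    dsRep.toDS _ (mkJS S F) q = F q := rfl

open Classical in
/-- families indexed by the primes outside `S`, cut down to a finite set `T`, as elements of
`I^S(L)`. -/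
def mkIS (T : Finset (OutS S)) (F : ∀ ℓ : OutS S, (Zq L ℓ.1.1).V) : (IS L S).V :=
  dsRep.ofDS _ (@DFinsupp.mk (OutS S) (fun ℓ => (Zq L ℓ.1.1).V) _ (fun _ => inferInstance) T
    (fun ℓ => F ℓ.1))

theorem toDS_mkIS (T : Finset (OutS S)) (F : ∀ ℓ : OutS S, (Zq L ℓ.1.1).V)
    (hT : ∀ ℓ, ℓ ∉ T → F ℓ = 0) (ℓ : OutS S) :
    dsRep.toDS _ (mkIS S T F) ℓ = F ℓ := by
  classical
  show (@DFinsupp.mk (OutS S) (fun ℓ => (Zq L ℓ.1.1).V) _ (fun _ => inferInstance) T
    (fun ℓ => F ℓ.1)) ℓ = F ℓ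
  rw [DFinsupp.mk_apply]
  split_ifs with h
  · rfl
  · exact (hT ℓ h).symm

open Classical in
theorem toDS_mkIS' (T : Finset (OutS S)) (F : ∀ ℓ : OutS S, (Zq L ℓ.1.1).V) (ℓ : OutS S) :
    dsRep.toDS _ (mkIS S T F) ℓ = if ℓ ∈ T then F ℓ else 0 := by
  show (@DFinsupp.mk (OutS S) (fun ℓ => (Zq L ℓ.1.1).V) _ (fun _ => inferInstance) T
    (fun ℓ => F ℓ.1)) ℓ = _
  rw [DFinsupp.mk_apply]
  split_ifs with h <;> rfl

/-- the `q`-coordinate of `J_S(L)` as an additive homomorphism. -/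
def coordJ (q : InS S) : (JS L S).V →+ (Jq q.1.1 L).V where
  toFun x := dsRep.toDS _ x q
  map_zero' := rfl
  map_add' _ _ := rfl

/-- the `ℓ`-coordinate of `I^S(L)` as an additive homomorphism. -/
def coordI (ℓ : OutS S) : (IS L S).V →+ (Zq L ℓ.1.1).V where
  toFun x := dsRep.toDS _ x ℓ
  map_zero' := rfl
  map_add' _ _ := rfl

end Families

variable {L K : IntermediateField ℚ Qbar} [Normal ℚ L] [FiniteDimensional ℚ L]
  [FiniteDimensional ℚ K] (hKL : K ≤ L) (D : PlaceData ↥K) (S : Finset Nat.Primes)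

/-- the rational prime below a finite place, as an element of `Nat.Primes`. -/
def pr (v : HeightOneSpectrum (𝓞 ↥K)) : Nat.Primes := ⟨D.ℓ v, (D.prime v).out⟩

/-! ### The `J_S`-part -/

/-- the `J_S`-part of the assembly map (on the full product of the local groups). -/
def FA : (∀ v : V ↥K, A D v) →* Multiplicative (JS L S).V where
  toFun y := Multiplicative.ofAdd (mkJS S fun q => (PhiQ hKL D q.1.1 y).toAdd)
  map_one' := by
    apply Multiplicative.toAdd.injective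
    apply dsRep.ext
    intro q
    show (PhiQ hKL D q.1.1 1).toAdd = 0
    rw [map_one]
    rfl
  map_mul' y z := by
    apply Multiplicative.toAdd.injective
    apply dsRep.ext
    intro q
    show (PhiQ hKL D q.1.1 (y * z)).toAdd =
      (PhiQ hKL D q.1.1 y).toAdd + (PhiQ hKL D q.1.1 z).toAdd
    rw [map_mul]
    rfl

theorem toDS_FA (y : ∀ v : V ↥K, A D v) (q : InS S) :
    dsRep.toDS _ (FA hKL D S y).toAdd q = (PhiQ hKL D q.1.1 y).toAdd := rfl

/-- `FA y` is `Gal(L/K)`-invariant. -/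
theorem rho_FA (y : ∀ v : V ↥K, A D v) {s : GalL L} (hs : s ∈ fixK L K hKL) :
    (JS L S).ρ s (FA hKL D S y).toAdd = (FA hKL D S y).toAdd := by
  apply dsRep.ext
  intro q
  rw [dsRep.ρ_apply, toDS_FA]
  exact rho_PhiQ hKL D q.1.1 y hs

/-! ### The `I^S`-part -/

variable {S}
variable (hunr : UnrOutside L S)

/-- the `ℓ`-coordinate of the ideal part. -/
def FBcoord (y : ∀ v : V ↥K, A D v) (ℓ : OutS S) : (Zq L ℓ.1.1).V :=
  (valZ ℓ.1.1 (locHom ℓ.1.1 L) (hunr ℓ.1 ℓ.2)).hom (PhiQ hKL D ℓ.1.1 y).toAdd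

theorem FBcoord_one (ℓ : OutS S) : FBcoord hKL D hunr 1 ℓ = 0 := by
  rw [FBcoord, map_one]
  exact map_zero _

theorem FBcoord_mul (y z : ∀ v : V ↥K, A D v) (ℓ : OutS S) :
    FBcoord hKL D hunr (y * z) ℓ = FBcoord hKL D hunr y ℓ + FBcoord hKL D hunr z ℓ := by
  rw [FBcoord, map_mul]
  exact map_add _ _ _

/-- the ideal part vanishes at the primes above which `y` is a unit. -/
theorem FBcoord_eq_zero (y : ∀ v : V ↥K, A D v) (ℓ : OutS S)
    (h : ∀ v : HeightOneSpectrum (𝓞 ↥K), D.ℓ v = ℓ.1.1 → y (Sum.inl v) ∈ unitBall D v) :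
    FBcoord hKL D hunr y ℓ = 0 := by
  rw [FBcoord, ← mem_range_inclφ_iff_valZ, mem_range_inclφ_iff]
  intro g
  exact NNReal.eq (norm_PhiQ_of_units hKL D ℓ.1.1 y h g)

/-- the finite set of primes outside `S` above which the idele `y` is not a unit. -/
theorem finite_bad (y : idele (A D) (U D)) :
    {ℓ : OutS S | ∃ v : HeightOneSpectrum (𝓞 ↥K), D.ℓ v = ℓ.1.1 ∧
      y.1 (Sum.inl v) ∉ unitBall D v}.Finite := by
  have h1 : {v : HeightOneSpectrum (𝓞 ↥K) | y.1 (Sum.inl v) ∉ U D (Sum.inl v)}.Finite :=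
    Set.Finite.preimage (Sum.inl_injective.injOn) y.2
  have h2 := h1.image D.ℓ
  refine (Set.Finite.preimage (f := fun ℓ : OutS S => (ℓ.1.1 : ℕ)) ?_ h2).subset ?_
  · intro a _ b _ hab
    exact Subtype.ext (Subtype.ext hab)
  · rintro ℓ ⟨v, hv, hy⟩
    exact ⟨v, hy, hv⟩

/-- the finite set of primes outside `S` above which the idele `y` is not a unit. -/
def bad (y : idele (A D) (U D)) : Finset (OutS S) := (finite_bad D y).toFinset

theorem FBcoord_eq_zero_of_notMem_bad (y : idele (A D) (U D)) (ℓ : OutS S)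
    (h : ℓ ∉ bad D y) : FBcoord hKL D hunr y.1 ℓ = 0 := by
  apply FBcoord_eq_zero
  intro v hv
  by_contra hcon
  apply h
  rw [bad, Set.Finite.mem_toFinset]
  exact ⟨v, hv, hcon⟩

/-- the `I^S`-part of the assembly map. -/
def FB : idele (A D) (U D) →* Multiplicative (IS L S).V where
  toFun y := Multiplicative.ofAdd (mkIS S (bad D y) (FBcoord hKL D hunr y.1))
  map_one' := by
    apply Multiplicative.toAdd.injective
    apply dsRep.ext
    intro ℓ
    show dsRep.toDS _ (mkIS S (bad D 1) (FBcoord hKL D hunr (1 : idele (A D) (U D)).1)) ℓ = 0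
    rw [toDS_mkIS _ _ _ (fun ℓ hℓ => FBcoord_eq_zero_of_notMem_bad hKL D hunr 1 ℓ hℓ)]
    exact FBcoord_one hKL D hunr ℓ
  map_mul' y z := by
    apply Multiplicative.toAdd.injective
    apply dsRep.ext
    intro ℓ
    show dsRep.toDS _ (mkIS S (bad D (y * z)) (FBcoord hKL D hunr (y * z).1)) ℓ =
      dsRep.toDS _ (mkIS S (bad D y) (FBcoord hKL D hunr y.1)) ℓ +
        dsRep.toDS _ (mkIS S (bad D z) (FBcoord hKL D hunr z.1)) ℓ
    rw [toDS_mkIS _ _ _ (fun ℓ hℓ => FBcoord_eq_zero_of_notMem_bad hKL D hunr _ ℓ hℓ),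
      toDS_mkIS _ _ _ (fun ℓ hℓ => FBcoord_eq_zero_of_notMem_bad hKL D hunr _ ℓ hℓ),
      toDS_mkIS _ _ _ (fun ℓ hℓ => FBcoord_eq_zero_of_notMem_bad hKL D hunr _ ℓ hℓ)]
    exact FBcoord_mul hKL D hunr y.1 z.1 ℓ

theorem toDS_FB (y : idele (A D) (U D)) (ℓ : OutS S) :
    dsRep.toDS _ (FB hKL D hunr y).toAdd ℓ = FBcoord hKL D hunr y.1 ℓ :=
  toDS_mkIS _ _ _ (fun ℓ hℓ => FBcoord_eq_zero_of_notMem_bad hKL D hunr y ℓ hℓ) ℓ

/-- `FB y` is `Gal(L/K)`-invariant. -/
theorem rho_FB (y : idele (A D) (U D)) {s : GalL L} (hs : s ∈ fixK L K hKL) :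
    (IS L S).ρ s (FB hKL D hunr y).toAdd = (FB hKL D hunr y).toAdd := by
  apply dsRep.ext
  intro ℓ
  rw [dsRep.ρ_apply, toDS_FB, FBcoord, ← Rep.hom_comm_apply, rho_PhiQ hKL D ℓ.1.1 y.1 hs]

/-! ### Principal ideles -/

/-- the image of `c ∈ Kˣ` in `(Lx L).V`. -/
def toLxK (c : (↥K)ˣ) : (Lx L).V :=
  Additive.ofMul (Units.map ((incl L K hKL : ↥K →+* ↥L) : ↥K →* ↥L) c)

theorem FA_diag (c : (↥K)ˣ) :
    (FA hKL D S (diag (A D) (ι D) c)).toAdd = (diagS L S).hom (toLxK hKL c) := by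
  apply dsRep.ext
  intro q
  rw [toDS_FA, diagS_hom_apply]
  exact PhiQ_diag hKL D q.1.1 c

theorem FB_diag (c : (↥K)ˣ) :
    (FB hKL D hunr ⟨diag (A D) (ι D) c, hfin D c⟩).toAdd = (idealMap hunr).hom (toLxK hKL c) := by
  apply dsRep.ext
  intro ℓ
  rw [toDS_FB, idealMap_hom_apply, divAt_hom_apply, FBcoord, PhiQ_diag]
  rfl

/-! ### The norm criterion -/

section Norm

variable (N : Subgroup ↥(fixK L K hKL)) [Fintype (↥(fixK L K hKL) ⧸ N)]

theorem isNorm_FA (y : ∀ v : V ↥K, A D v)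
    (h : ∀ q : InS S, IsNorm (fixK L K hKL) N (Jq q.1.1 L) (PhiQ hKL D q.1.1 y).toAdd) :
    IsNorm (fixK L K hKL) N (JS L S) (FA hKL D S y).toAdd := by
  choose w hw hs using h
  refine ⟨mkJS S w, fun n => ?_, fun r hr => ?_⟩
  · apply dsRep.ext
    intro q
    rw [dsRep.ρ_apply, toDS_mkJS]
    exact hw q n
  · apply dsRep.ext
    intro q
    show coordJ S q (∑ c, (JS L S).ρ ((r c : ↥(fixK L K hKL)) : GalL L) (mkJS S w)) = _
    rw [map_sum, toDS_FA, ← hs q r hr]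
    rfl

theorem isNorm_FB (y : idele (A D) (U D))
    (h : ∀ ℓ : OutS S, IsNorm (fixK L K hKL) N (Jq ℓ.1.1 L) (PhiQ hKL D ℓ.1.1 y.1).toAdd) :
    IsNorm (fixK L K hKL) N (IS L S) (FB hKL D hunr y).toAdd := by
  classical
  have h' : ∀ ℓ : OutS S, IsNorm (fixK L K hKL) N (Zq L ℓ.1.1) (FBcoord hKL D hunr y.1 ℓ) :=
    fun ℓ => (h ℓ).map (valZ ℓ.1.1 (locHom ℓ.1.1 L) (hunr ℓ.1 ℓ.2))
  choose w hw hs using h'
  refine ⟨mkIS S (bad D y) w, fun n => ?_, fun r hr => ?_⟩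
  · apply dsRep.ext
    intro ℓ
    rw [dsRep.ρ_apply, toDS_mkIS']
    split_ifs with hℓ
    · exact hw ℓ n
    · exact map_zero _
  · apply dsRep.ext
    intro ℓ
    show coordI S ℓ (∑ c, (IS L S).ρ ((r c : ↥(fixK L K hKL)) : GalL L) (mkIS S (bad D y) w)) = _
    rw [map_sum, toDS_FB]
    have hc : ∀ c, coordI S ℓ ((IS L S).ρ ((r c : ↥(fixK L K hKL)) : GalL L)
        (mkIS S (bad D y) w)) =
        (Zq L ℓ.1.1).ρ ((r c : ↥(fixK L K hKL)) : GalL L) (if ℓ ∈ bad D y then w ℓ else 0) := by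
      intro c
      show dsRep.toDS _ ((IS L S).ρ _ (mkIS S (bad D y) w)) ℓ = _
      rw [dsRep.ρ_apply, toDS_mkIS']
    rw [Finset.sum_congr rfl fun c _ => hc c]
    split_ifs with hℓ
    · exact hs ℓ r hr
    · rw [FBcoord_eq_zero_of_notMem_bad hKL D hunr y ℓ hℓ]
      simp

end Norm

/-! ### Surjectivity onto the invariants -/

section Surj

omit [FiniteDimensional ℚ L] in
theorem rho_qPow (q : ℕ) [Fact q.Prime] (s : GalL L) (h : (Zq L q).V) :
    (Jq q L).ρ s (qPow q (locHom q L) h) = qPow q (locHom q L) ((Zq L q).ρ s h) := rfl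

omit [FiniteDimensional ℚ L] in
theorem qPow_zero (q : ℕ) [Fact q.Prime] : qPow q (locHom q L) (0 : (Zq L q).V) = 0 := by
  apply Subtype.ext
  funext g
  show Additive.ofMul (qUnit q ^ (0 : ℤ)) = 0
  rw [zpow_zero]
  rfl

variable (u : (JS L S).V) (w : (IS L S).V)

/-- the target at the prime `q`: the `q`-coordinate of `u` if `q ∈ S`, a lift of the
`q`-coordinate of `w` otherwise. -/
def tgt (q : Nat.Primes) : (Jq q.1 L).V :=
  if h : q ∈ S then dsRep.toDS _ u ⟨q, h⟩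
  else qPow q.1 (locHom q.1 L) (dsRep.toDS _ w ⟨q, h⟩)

theorem rho_tgt (hu : ∀ s ∈ fixK L K hKL, (JS L S).ρ s u = u)
    (hw : ∀ s ∈ fixK L K hKL, (IS L S).ρ s w = w) (q : Nat.Primes) {s : GalL L}
    (hs : s ∈ fixK L K hKL) : (Jq q.1 L).ρ s (tgt u w q) = tgt u w q := by
  unfold tgt
  split_ifs with h
  · have := congrArg (fun x => dsRep.toDS _ x (⟨q, h⟩ : InS S)) (hu s hs)
    simpa only [dsRep.ρ_apply] using this
  · have := congrArg (fun x => dsRep.toDS _ x (⟨q, h⟩ : OutS S)) (hw s hs)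
    simp only [dsRep.ρ_apply] at this
    rw [rho_qPow]
    exact congrArg _ this

theorem finite_tgt_ne_zero : {q : Nat.Primes | tgt u w q ≠ 0}.Finite := by
  classical
  have h2 : {q : Nat.Primes | ∃ h : q ∉ S, dsRep.toDS _ w ⟨q, h⟩ ≠ 0}.Finite := by
    have h3 : {ℓ : OutS S | dsRep.toDS _ w ℓ ≠ 0}.Finite := by
      refine (DFinsupp.support (dsRep.toDS _ w)).finite_toSet.subset ?_
      intro ℓ hℓ
      exact DFinsupp.mem_support_iff.mpr hℓ
    refine (h3.image (fun ℓ : OutS S => ℓ.1)).subset ?_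
    rintro q ⟨h, hq⟩
    exact ⟨⟨q, h⟩, hq, rfl⟩
  refine ((S.finite_toSet).union h2).subset ?_
  intro q hq
  by_cases h : q ∈ S
  · exact Or.inl h
  · refine Or.inr ⟨h, ?_⟩
    intro h0
    apply hq
    unfold tgt
    rw [dif_neg h, h0]
    exact qPow_zero q.1

variable (hu : ∀ s ∈ fixK L K hKL, (JS L S).ρ s u = u)
  (hw : ∀ s ∈ fixK L K hKL, (IS L S).ρ s w = w)

open Classical in
/-- the chosen preimage above the prime `q`. -/
def Ysel (q : Nat.Primes) : ∀ v : V ↥K, A D v :=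
  if tgt u w q = 0 then 1
  else (PhiQ_surjective hKL D q.1 (tgt u w q)
    (fun _ hs => rho_tgt hKL u w hu hw q hs)).choose

theorem Ysel_spec (q : Nat.Primes) :
    (∀ v : HeightOneSpectrum (𝓞 ↥K), D.ℓ v ≠ q.1 → Ysel hKL D u w hu hw q (Sum.inl v) = 1) ∧
      (∀ x, Ysel hKL D u w hu hw q (Sum.inr x) = 1) ∧
      (PhiQ hKL D q.1 (Ysel hKL D u w hu hw q)).toAdd = tgt u w q := by
  classical
  unfold Ysel
  split_ifs with h
  · refine ⟨fun _ _ => rfl, fun _ => rfl, ?_⟩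
    rw [map_one, h]
    rfl
  · exact (PhiQ_surjective hKL D q.1 (tgt u w q)
      (fun _ hs => rho_tgt hKL u w hu hw q hs)).choose_spec

theorem Ysel_eq_one (q : Nat.Primes) (h : tgt u w q = 0) : Ysel hKL D u w hu hw q = 1 := by
  classical
  unfold Ysel
  rw [if_pos h]

/-- the assembled preimage. -/
def ysel : ∀ v : V ↥K, A D v
  | Sum.inl v => Ysel hKL D u w hu hw (pr D v) (Sum.inl v)
  | Sum.inr _ => 1

theorem ysel_mem : ysel hKL D u w hu hw ∈ idele (A D) (U D) := by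
  classical
  rw [mem_idele]
  have hfin : {v : HeightOneSpectrum (𝓞 ↥K) | tgt u w (pr D v) ≠ 0}.Finite := by
    have h1 := finite_tgt_ne_zero u w
    have : {v : HeightOneSpectrum (𝓞 ↥K) | tgt u w (pr D v) ≠ 0} =
        ⋃ q ∈ {q : Nat.Primes | tgt u w q ≠ 0}, {v | D.ℓ v = q.1} := by
      ext v
      simp only [Set.mem_ofPred_eq, Set.mem_iUnion, exists_prop]
      constructor
      · intro hv
        exact ⟨pr D v, hv, rfl⟩
      · rintro ⟨q, hq, hv⟩
        have : pr D v = q := Subtype.ext hv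
        rwa [this]
    rw [this]
    exact h1.biUnion fun q _ => finite_setOf_ℓ_eq (D := D) q.1
  refine (hfin.image Sum.inl).subset ?_
  rintro (v | x) hv
  · refine ⟨v, ?_, rfl⟩
    intro h0
    apply hv
    show Ysel hKL D u w hu hw (pr D v) (Sum.inl v) ∈ U D (Sum.inl v)
    rw [Ysel_eq_one hKL D u w hu hw _ h0]
    exact Subgroup.one_mem _
  · exact absurd (Subgroup.mem_top _) hv

theorem PhiQ_ysel (q : Nat.Primes) :
    (PhiQ hKL D q.1 (ysel hKL D u w hu hw)).toAdd = tgt u w q := by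
  rw [← (Ysel_spec hKL D u w hu hw q).2.2]
  congr 1
  apply PhiQ_congr hKL D q.1
  intro v hv
  have : pr D v = q := Subtype.ext hv
  show Ysel hKL D u w hu hw (pr D v) (Sum.inl v) = _
  rw [this]

include hu hw in
/-- **surjectivity**: every `Gal(L/K)`-invariant element of `J_S(L) × I^S(L)` comes from an idele
of `K`. -/
theorem exists_idele_of_invariant :
    ∃ y : idele (A D) (U D), (FA hKL D S y.1).toAdd = u ∧ (FB hKL D hunr y).toAdd = w := by
  refine ⟨⟨ysel hKL D u w hu hw, ysel_mem hKL D u w hu hw⟩, ?_, ?_⟩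
  · apply dsRep.ext
    intro q
    rw [toDS_FA]
    have := PhiQ_ysel hKL D u w hu hw q.1
    rw [this]
    unfold tgt
    rw [dif_pos q.2]
  · apply dsRep.ext
    intro ℓ
    rw [toDS_FB, FBcoord]
    have := PhiQ_ysel hKL D u w hu hw ℓ.1
    show (valZ ℓ.1.1 (locHom ℓ.1.1 L) (hunr ℓ.1 ℓ.2)).hom
      (PhiQ hKL D ℓ.1.1 (ysel hKL D u w hu hw)).toAdd = _
    rw [this]
    unfold tgt
    rw [dif_neg ℓ.2]
    exact valZ_qPow _ _ _ _

end Surj

end Fermat.Agent.S55.SecondInst53.Global
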