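/-
S55 / 32-SECOND-INEQ, CLOSED (helper53, 32c-B owner; final wiring).

**The second inequality of global class field theory, unconditional**, in the literal consumer
shapes:

* `secondIneqOut_muSub` : for every finite Galois level `L/ℚ` unramified outside `S ∋ p`, `p` odd,
  `ζ_p ∈ L`: `Adapt77.HcycGlue.SecondIneqOut (IdeleVal44.CS hunr) (muSub p L) p`, i.e.
  `|Ĥ⁰(H/N, C_S(L)^N)| ∣ p` for all layers `N ⊴ H ≤ Gal(L/ℚ(μ_p))` of order `p`;
* `secondOut` : helper1's `SUnit1.IneqOutFirst.SecondOut S p ℚ(ζ_p) (ker χ_p)`;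
* `ineqOut`   : helper79's `CS79.CofinalCS.IneqOut S p ℚ(ζ_p) (ker χ_p)` (both inequalities).

= helper30 `SecondInst30.SecondIneqOut.secondIneqOut` (K-side `Main3` + `FIStep` + helper53
`Output.exists_psi`) with the first inequality discharged by helper1/helper73
`SUnit1.FirstOutFinal.firstIneqOut_CS`.
-/
import Mathlib
import Fermat.Agent.S55.SecondInst30.SecondIneqOut
import Fermat.Agent.S55.SUnit1.FirstOutFinal
import Fermat.Agent.S55.SUnit1.IneqOutFirst
import Fermat.Agent.S55.MuLevel19b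

set_option autoImplicit false

namespace Fermat.Agent.S55.SecondInst53.Second

open ExtCitation
open Fermat.Agent.S55.Idele73.Basic Fermat.Agent.S55.IdeleVal44
  Fermat.Agent.S55.Adapt77.HcycGlue Fermat.Agent.S55.Adapt77.MuSubgroup

variable {S : Finset Nat.Primes} {p : ℕ} [Fact p.Prime]

/-- **(32-OUT), unconditional, for an arbitrary subgroup `H₀` fixing `ζ_p`.** -/
theorem secondIneqOut {L : IntermediateField ℚ Qbar} [Normal ℚ L] [FiniteDimensional ℚ L]
    (hp2 : 2 < p) (hpS : (⟨p, Fact.out⟩ : Nat.Primes) ∈ S) (hL : L.IsUnramifiedOutside S)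
    (hunr : UnrOutside L S) (ζ : ↥L) (hζ : IsPrimitiveRoot ζ p) (H₀ : Subgroup (GalL L))
    (hH₀ : ∀ s ∈ H₀, s ζ = ζ) : SecondIneqOut (CS hunr) H₀ p := by
  have hodd : Odd p := (Fact.out : p.Prime).odd_of_ne_two (by omega)
  exact SecondInst30.SecondIneqOut.secondIneqOut hp2 hpS hL hunr ζ hζ H₀ hH₀
    (fun S' hSS' L' _ _ _ h' =>
      Fermat.Agent.S55.SUnit1.FirstOutFinal.firstIneqOut_CS h' ⟨_, hSS' hpS⟩ p hodd)

/-- **(32-OUT), unconditional, below `muSub p L = Gal(L/ℚ(μ_p))`.** -/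
theorem secondIneqOut_muSub {L : IntermediateField ℚ Qbar} [Normal ℚ L] [FiniteDimensional ℚ L]
    (hp2 : 2 < p) (hpS : (⟨p, Fact.out⟩ : Nat.Primes) ∈ S) (hL : L.IsUnramifiedOutside S)
    (hunr : UnrOutside L S) (ζ : ↥L) (hζ : IsPrimitiveRoot ζ p) :
    SecondIneqOut (CS hunr) (muSub p L) p :=
  secondIneqOut hp2 hpS hL hunr ζ hζ (muSub p L)
    (MuLevel19b.forall_fixes_of_le_muSub p L le_rfl hζ.pow_eq_one)

/-- **helper1's `SecondOut`**: the second inequality at every Galois `S`-level above `ℚ(ζ_p)`. -/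
theorem secondOut (hp2 : 2 < p) (hpS : (⟨p, Fact.out⟩ : Nat.Primes) ∈ S) {ζ : Qbar}
    (hζ : IsPrimitiveRoot ζ p) :
    SUnit1.IneqOutFirst.SecondOut S p (IntermediateField.adjoin ℚ {ζ}) (cycloChar p).ker := by
  intro L _ hL hle h
  have : FiniteDimensional ℚ L := hL.1
  have hζL : ζ ∈ L := hle (IntermediateField.mem_adjoin_simple_self ℚ ζ)
  have hζ' : IsPrimitiveRoot (⟨ζ, hζL⟩ : ↥L) p :=
    IsPrimitiveRoot.of_map_of_injective (f := L.val) (by simpa using hζ) L.val.injective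
  exact ⟨muSub p L, le_refl _, secondIneqOut_muSub hp2 hpS hL h ⟨ζ, hζL⟩ hζ'⟩

/-- **helper79's `IneqOut`**: both inequalities at every Galois `S`-level above `ℚ(ζ_p)`. -/
theorem ineqOut (hp2 : 2 < p) (hpS : (⟨p, Fact.out⟩ : Nat.Primes) ∈ S) {ζ : Qbar}
    (hζ : IsPrimitiveRoot ζ p) :
    CS79.CofinalCS.IneqOut S p (IntermediateField.adjoin ℚ {ζ}) (cycloChar p).ker :=
  SUnit1.IneqOutFirst.ineqOut_of_second ⟨_, hpS⟩
    ((Fact.out : p.Prime).odd_of_ne_two (by omega)) (secondOut hp2 hpS hζ)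

end Fermat.Agent.S55.SecondInst53.Second
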